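import Fermat.Agent.S05.Good

/-!
# S05: Frey glue for the good reduction case (helper9)

* `FA_S05_intCast_mem_nonunits_iff` : for `A` over the prime `q`, an integer is in the maximal
  ideal iff it is divisible by `q`.
* `FA_S05_frey_integral` : the Frey curve has coefficients in `A` when `q ≠ 2`.
* `FA_S05_frey_Δ` : `Δ = (abc)^(2p) / 256`.
* `FA_S05_frey_good` : if `q ∤ abc`, inertia at `q` acts trivially on `E[p]`.
-/

namespace Fermat.Agent.S05

open WeierstrassCurve
open scoped WeierstrassCurve.Affine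

section general

variable {K : Type*} [Field K]

lemma FA_S05_intCast_mem (A : ValuationSubring K) (n : ℤ) : (n : K) ∈ A :=
  intCast_mem A n

/-- For `A` lying over the prime `q`, an integer is in the maximal ideal iff `q` divides it. -/
theorem FA_S05_intCast_mem_nonunits_iff (A : ValuationSubring K) {q : ℕ} (hq : q.Prime)
    (hA : (q : K) ∈ A.nonunits) (n : ℤ) : (n : K) ∈ A.nonunits ↔ (q : ℤ) ∣ n := by
  constructor
  · intro hn
    by_contra hdvd
    have hcop : IsCoprime n (q : ℤ) := by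
      rw [isCoprime_comm]
      exact (Nat.prime_iff_prime_int.mp hq).coprime_iff_not_dvd.mpr hdvd
    obtain ⟨u, w, huw⟩ := hcop
    have h1 : (u : K) * (n : K) + (w : K) * (q : K) = 1 := by
      have := congrArg (fun z : ℤ => (z : K)) huw
      push_cast at this
      exact this
    rw [A.mem_nonunits_iff] at hn hA
    have hlt : A.valuation ((u : K) * (n : K) + (w : K) * (q : K)) < 1 := by
      refine (A.valuation).map_add_lt ?_ ?_
      · exact lt_of_le_of_lt (FA_S05_v_mul_left _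
          ((A.valuation_le_one_iff _).mpr (intCast_mem A u)) le_rfl) hn
      · exact lt_of_le_of_lt (FA_S05_v_mul_left _
          ((A.valuation_le_one_iff _).mpr (intCast_mem A w)) le_rfl) hA
    rw [h1, map_one] at hlt
    exact lt_irrefl _ hlt
  · rintro ⟨m, rfl⟩
    rw [A.mem_nonunits_iff] at hA ⊢
    push_cast
    exact lt_of_le_of_lt (FA_S05_v_mul_right _ le_rfl
      ((A.valuation_le_one_iff _).mpr (intCast_mem A m))) hA

theorem FA_S05_natCast_mem_nonunits_iff (A : ValuationSubring K) {q : ℕ} (hq : q.Prime)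
    (hA : (q : K) ∈ A.nonunits) (n : ℕ) : (n : K) ∈ A.nonunits ↔ q ∣ n := by
  have := FA_S05_intCast_mem_nonunits_iff A hq hA (n : ℤ)
  rw [Int.natCast_dvd_natCast] at this
  rw [← this]
  simp

/-- The inverse of an element of `A` outside the maximal ideal is in `A`. -/
lemma FA_S05_inv_mem_of_not_mem_nonunits (A : ValuationSubring K) {x : K} (hx : x ∈ A)
    (hx' : x ∉ A.nonunits) : x⁻¹ ∈ A := by
  rw [A.mem_nonunits_iff, not_lt] at hx'
  have h1 : A.valuation x = 1 := le_antisymm ((A.valuation_le_one_iff _).mpr hx) hx'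
  rw [← A.valuation_le_one_iff, map_inv₀, h1, inv_one]

lemma FA_S05_two_inv_mem (A : ValuationSubring K) {q : ℕ} (hq : q.Prime) (hq2 : q ≠ 2)
    (hA : (q : K) ∈ A.nonunits) : (2 : K)⁻¹ ∈ A := by
  have h2 : ((2 : ℕ) : K) ∉ A.nonunits := by
    rw [FA_S05_natCast_mem_nonunits_iff A hq hA]
    intro h
    exact hq2 ((Nat.prime_dvd_prime_iff_eq hq Nat.prime_two).mp h)
  have := FA_S05_inv_mem_of_not_mem_nonunits A (natCast_mem A 2) h2
  simpa using this

end general

section frey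

variable {K : Type*} [Field K] [Algebra ℚ K]

lemma FA_S05_frey_a₁ (P : FreyPackage) : (P.freyCurve⁄K).a₁ = 1 := by
  simp [WeierstrassCurve.Affine.baseChange, FreyPackage.freyCurve]

lemma FA_S05_frey_a₂ (P : FreyPackage) :
    (P.freyCurve⁄K).a₂ = ((P.b ^ P.p - 1 - P.a ^ P.p : ℤ) : K) * (2 : K)⁻¹ ^ 2 := by
  simp only [WeierstrassCurve.Affine.baseChange, WeierstrassCurve.baseChange,
    WeierstrassCurve.map_a₂, FreyPackage.freyCurve]
  rw [map_div₀]
  simp only [map_sub, map_pow, map_intCast, map_one, map_ofNat]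
  push_cast
  have : CharZero K := algebraRat.charZero K
  field_simp
  ring

lemma FA_S05_frey_a₃ (P : FreyPackage) : (P.freyCurve⁄K).a₃ = 0 := by
  simp [WeierstrassCurve.Affine.baseChange, FreyPackage.freyCurve]

lemma FA_S05_frey_a₄ (P : FreyPackage) :
    (P.freyCurve⁄K).a₄ = ((-(P.a ^ P.p) * (P.b ^ P.p) : ℤ) : K) * (2 : K)⁻¹ ^ 4 := by
  simp only [WeierstrassCurve.Affine.baseChange, WeierstrassCurve.baseChange,
    WeierstrassCurve.map_a₄, FreyPackage.freyCurve]
  rw [map_div₀]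
  simp only [map_mul, map_neg, map_pow, map_intCast, map_ofNat]
  push_cast
  have : CharZero K := algebraRat.charZero K
  field_simp
  ring

lemma FA_S05_frey_a₆ (P : FreyPackage) : (P.freyCurve⁄K).a₆ = 0 := by
  simp [WeierstrassCurve.Affine.baseChange, FreyPackage.freyCurve]

/-- The Frey curve has coefficients in `A` when `A` lies over an odd prime. -/
theorem FA_S05_frey_integral (P : FreyPackage) (A : ValuationSubring K) {q : ℕ}
    (hq : q.Prime) (hq2 : q ≠ 2) (hA : (q : K) ∈ A.nonunits) :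
    FA_S05_Integral A (P.freyCurve⁄K) := by
  have h2 := FA_S05_two_inv_mem A hq hq2 hA
  refine ⟨?_, ?_, ?_, ?_, ?_⟩
  · rw [FA_S05_frey_a₁]; exact one_mem A
  · rw [FA_S05_frey_a₂]; exact mul_mem (intCast_mem A _) (pow_mem h2 2)
  · rw [FA_S05_frey_a₃]; exact zero_mem A
  · rw [FA_S05_frey_a₄]; exact mul_mem (intCast_mem A _) (pow_mem h2 4)
  · rw [FA_S05_frey_a₆]; exact zero_mem A

/-- The discriminant of the Frey curve. -/
theorem FA_S05_frey_Δ_rat (P : FreyPackage) :
    P.freyCurve.Δ = ((P.a * P.b * P.c : ℤ) : ℚ) ^ (2 * P.p) / 256 := by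
  have hFLT : ((P.a : ℚ)) ^ P.p + (P.b : ℚ) ^ P.p = (P.c : ℚ) ^ P.p := by
    exact_mod_cast P.hFLT
  simp only [WeierstrassCurve.Δ, WeierstrassCurve.b₂, WeierstrassCurve.b₄, WeierstrassCurve.b₆,
    WeierstrassCurve.b₈, FreyPackage.freyCurve]
  push_cast
  rw [mul_pow, mul_pow, pow_mul', pow_mul', pow_mul', ← hFLT]
  ring

theorem FA_S05_frey_Δ (P : FreyPackage) :
    (P.freyCurve⁄K).Δ = ((P.a * P.b * P.c : ℤ) : K) ^ (2 * P.p) * (2 : K)⁻¹ ^ 8 := by
  have h := FA_S05_frey_Δ_rat P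
  have h1 : (P.freyCurve⁄K).Δ = algebraMap ℚ K P.freyCurve.Δ := by
    simp only [WeierstrassCurve.Affine.baseChange, WeierstrassCurve.baseChange,
      WeierstrassCurve.map_Δ]
  rw [h1, h, map_div₀, map_pow, map_intCast, map_ofNat]
  have : CharZero K := algebraRat.charZero K
  field_simp
  norm_num

/-- If `q ∤ abc` (and `q ≠ 2`), the discriminant of the Frey curve is a unit of `A`. -/
theorem FA_S05_frey_Δ_unit (P : FreyPackage) (A : ValuationSubring K) {q : ℕ}
    (hq : q.Prime) (hq2 : q ≠ 2) (hA : (q : K) ∈ A.nonunits)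
    (hqabc : ¬ (q : ℤ) ∣ P.a * P.b * P.c) : (P.freyCurve⁄K).Δ ∉ A.nonunits := by
  have habc : ((P.a * P.b * P.c : ℤ) : K) ∉ A.nonunits := by
    rw [FA_S05_intCast_mem_nonunits_iff A hq hA]
    exact hqabc
  have h2 : ((2 : ℕ) : K) ∉ A.nonunits := by
    rw [FA_S05_natCast_mem_nonunits_iff A hq hA]
    intro h
    exact hq2 ((Nat.prime_dvd_prime_iff_eq hq Nat.prime_two).mp h)
  rw [A.mem_nonunits_iff, not_lt] at habc h2 ⊢
  have habc1 : A.valuation ((P.a * P.b * P.c : ℤ) : K) = 1 :=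
    le_antisymm ((A.valuation_le_one_iff _).mpr (intCast_mem A _)) habc
  have h21 : A.valuation ((2 : ℕ) : K) = 1 :=
    le_antisymm ((A.valuation_le_one_iff _).mpr (natCast_mem A _)) h2
  rw [FA_S05_frey_Δ, map_mul, map_pow, map_pow, map_inv₀, habc1]
  have : A.valuation (2 : K) = 1 := by simpa using h21
  rw [this]
  simp

end frey

/-- **S05, good reduction case**: if `q ∤ abc`, `q ≠ 2`, `q ≠ p`, the inertia group at `q` acts
trivially on the `p`-torsion of the Frey curve. -/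
theorem FA_S05_frey_good (P : FreyPackage) {q : ℕ} (hq : q.Prime) (hq2 : q ≠ 2)
    (hqp : q ≠ P.p) (hqabc : ¬ (q : ℤ) ∣ P.a * P.b * P.c)
    (A : ValuationSubring (AlgebraicClosure ℚ)) (hA : A.LiesOverPrime q)
    (σ : AlgebraicClosure ℚ ≃ₐ[ℚ] AlgebraicClosure ℚ) (hσ : σ ∈ A.inertiaSubgroupIn ℚ)
    (x : Submodule.torsionBy ℤ (P.freyCurve⁄(AlgebraicClosure ℚ)).Point P.p) :
    σ • x = x := by
  have hW := FA_S05_frey_integral (K := AlgebraicClosure ℚ) P A hq hq2 hA
  have hΔ := FA_S05_frey_Δ_unit (K := AlgebraicClosure ℚ) P A hq hq2 hA hqabc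
  have hp : ((P.p : ℕ) : AlgebraicClosure ℚ) ∉ A.nonunits := by
    rw [FA_S05_natCast_mem_nonunits_iff A hq hA]
    intro h
    exact hqp ((Nat.prime_dvd_prime_iff_eq hq P.pp).mp h)
  obtain ⟨Q, hQ⟩ := x
  have hQ' : P.p • Q = 0 := by
    rw [Submodule.mem_torsionBy_iff] at hQ
    rw [← hQ]
    exact (natCast_zsmul Q P.p).symm
  apply Subtype.ext
  exact FA_S05_good P.freyCurve A hW hΔ P.p hp σ hσ Q hQ'

end Fermat.Agent.S05
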