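import Mathlib

/-!
# S05: translation of coordinates `(x, y) ↦ (x - r, y - t)` as a group isomorphism of points

For Weierstrass curves `W`, `W'` over a field `K` whose coefficients are related by the
translation `(r, t)`, the map `(x, y) ↦ (x - r, y - t)` is an injective group homomorphism
`W.Point →+ W'.Point`.
-/

open WeierstrassCurve WeierstrassCurve.Affine

namespace Fermat.Agent.S05

variable {K : Type*} [Field K] {W W' : WeierstrassCurve.Affine K} {r t : K}

/-- `W'` is the translate of `W` by `(r, t)`: `x' = x - r`, `y' = y - t`. -/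
structure FA_S05_mTransl (W W' : WeierstrassCurve.Affine K) (r t : K) : Prop where
  a1 : W'.a₁ = W.a₁
  a2 : W'.a₂ = W.a₂ + 3 * r
  a3 : W'.a₃ = W.a₃ + r * W.a₁ + 2 * t
  a4 : W'.a₄ = W.a₄ + 2 * r * W.a₂ - t * W.a₁ + 3 * r ^ 2
  a6 : W'.a₆ = W.a₆ + r * W.a₄ + r ^ 2 * W.a₂ + r ^ 3 - t * W.a₃ - t ^ 2 - r * t * W.a₁

namespace FA_S05_mTransl

variable (hT : FA_S05_mTransl W W' r t)
include hT

lemma equation_iff (x y : K) : W'.Equation (x - r) (y - t) ↔ W.Equation x y := by
  rw [Affine.equation_iff, Affine.equation_iff, hT.a1, hT.a2, hT.a3, hT.a4, hT.a6]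
  constructor <;> intro h <;> linear_combination h

lemma polyX (x y : K) :
    W'.polynomialX.evalEval (x - r) (y - t) = W.polynomialX.evalEval x y := by
  rw [evalEval_polynomialX, evalEval_polynomialX, hT.a1, hT.a2, hT.a4]
  ring

lemma polyY (x y : K) :
    W'.polynomialY.evalEval (x - r) (y - t) = W.polynomialY.evalEval x y := by
  rw [evalEval_polynomialY, evalEval_polynomialY, hT.a1, hT.a3]
  ring

lemma nonsingular_iff (x y : K) : W'.Nonsingular (x - r) (y - t) ↔ W.Nonsingular x y := by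
  rw [Nonsingular, Nonsingular, hT.equation_iff, hT.polyX, hT.polyY]

lemma negY_eq (x y : K) : W'.negY (x - r) (y - t) = W.negY x y - t := by
  simp only [negY, hT.a1, hT.a3]
  ring

lemma addX_eq (x₁ x₂ ℓ : K) : W'.addX (x₁ - r) (x₂ - r) ℓ = W.addX x₁ x₂ ℓ - r := by
  simp only [addX, hT.a1, hT.a2]
  ring

lemma addY_eq (x₁ x₂ y₁ ℓ : K) :
    W'.addY (x₁ - r) (x₂ - r) (y₁ - t) ℓ = W.addY x₁ x₂ y₁ ℓ - t := by
  simp only [addY, negAddY, negY, addX, hT.a1, hT.a2, hT.a3]
  ring

variable [DecidableEq K]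

lemma slope_eq (x₁ x₂ y₁ y₂ : K) :
    W'.slope (x₁ - r) (x₂ - r) (y₁ - t) (y₂ - t) = W.slope x₁ x₂ y₁ y₂ := by
  by_cases hx : x₁ = x₂
  · have hx' : x₁ - r = x₂ - r := by rw [hx]
    by_cases hy : y₁ = W.negY x₂ y₂
    · rw [slope_of_Y_eq hx hy, slope_of_Y_eq hx' (by rw [hT.negY_eq, hy])]
    · have hy' : y₁ - t ≠ W'.negY (x₂ - r) (y₂ - t) := by
        rw [hT.negY_eq]
        intro h
        exact hy (sub_left_injective h)
      rw [slope_of_Y_ne hx hy, slope_of_Y_ne hx' hy', hT.negY_eq, hT.a1, hT.a2, hT.a4]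
      congr 1 <;> ring
  · have hx' : x₁ - r ≠ x₂ - r := fun h => hx (sub_left_injective h)
    rw [slope_of_X_ne hx, slope_of_X_ne hx']
    congr 1 <;> ring

end FA_S05_mTransl

omit [Field K] in
lemma FA_S05_m_some_congr {K : Type*} [CommRing K] {W : WeierstrassCurve.Affine K}
    {x y x' y' : K} (h : W.Nonsingular x y)
    (h' : W.Nonsingular x' y') (hx : x = x') (hy : y = y') :
    Point.some x y h = Point.some x' y' h' := by
  subst hx hy
  rfl

variable [DecidableEq K]

/-- The translation map on points. -/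
noncomputable def FA_S05_mTranslMap (hT : FA_S05_mTransl W W' r t) : W.Point →+ W'.Point where
  toFun P := match P with
    | .zero => .zero
    | .some x y h => .some (x - r) (y - t) ((hT.nonsingular_iff x y).mpr h)
  map_zero' := rfl
  map_add' := by
    rintro (_ | ⟨x₁, y₁, h₁⟩) (_ | ⟨x₂, y₂, h₂⟩)
    any_goals rfl
    by_cases hxy : x₁ = x₂ ∧ y₁ = W.negY x₂ y₂
    · rw [Point.add_of_Y_eq hxy.left hxy.right]
      exact (Point.add_of_Y_eq (congr_arg (· - r) hxy.left)
        (by rw [hT.negY_eq, hxy.right])).symm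
    · have hxy' : ¬(x₁ - r = x₂ - r ∧ y₁ - t = W'.negY (x₂ - r) (y₂ - t)) := by
        rintro ⟨h1, h2⟩
        rw [hT.negY_eq] at h2
        exact hxy ⟨sub_left_injective h1, sub_left_injective h2⟩
      rw [Point.add_some hxy]
      refine Eq.trans ?_ (Point.add_some hxy').symm
      apply FA_S05_m_some_congr
      · rw [hT.slope_eq, hT.addX_eq]
      · rw [hT.slope_eq, hT.addY_eq]

lemma FA_S05_mTranslMap_zero (hT : FA_S05_mTransl W W' r t) :
    FA_S05_mTranslMap hT 0 = 0 := rfl

lemma FA_S05_mTranslMap_some (hT : FA_S05_mTransl W W' r t) {x y : K}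
    (h : W.Nonsingular x y) :
    FA_S05_mTranslMap hT (Point.some x y h) =
      Point.some (x - r) (y - t) ((hT.nonsingular_iff x y).mpr h) := rfl

lemma FA_S05_mTranslMap_injective (hT : FA_S05_mTransl W W' r t) :
    Function.Injective (FA_S05_mTranslMap hT) := by
  rintro (_ | ⟨x₁, y₁, h₁⟩) (_ | ⟨x₂, y₂, h₂⟩) h
  · rfl
  · exact absurd h (by simp [FA_S05_mTranslMap])
  · exact absurd h (by simp [FA_S05_mTranslMap])
  · rw [FA_S05_mTranslMap_some, FA_S05_mTranslMap_some] at h
    have h' := Point.some.inj h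
    exact FA_S05_m_some_congr _ _ (sub_left_injective h'.1) (sub_left_injective h'.2)

end Fermat.Agent.S05
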