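import Fermat.Agent.S05.MultFinal
import Fermat.Agent.S05.MultTransl
import Fermat.Agent.S05.FreyGood

/-!
# S05: Frey glue for the multiplicative case `q ∣ abc`
-/

namespace Fermat.Agent.S05

open WeierstrassCurve
open scoped WeierstrassCurve.Affine

section ints

variable {K : Type*} [Field K]

lemma FA_S05_m_v_int_eq_one (A : ValuationSubring K) {q : ℕ} (hq : q.Prime)
    (hA : (q : K) ∈ A.nonunits) (n : ℤ) (hn : ¬ (q : ℤ) ∣ n) : A.valuation (n : K) = 1 := by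
  have h1 : (n : K) ∉ A.nonunits := by
    rw [FA_S05_intCast_mem_nonunits_iff A hq hA]
    exact hn
  rw [A.mem_nonunits_iff, not_lt] at h1
  exact le_antisymm ((A.valuation_le_one_iff _).mpr (intCast_mem A n)) h1

lemma FA_S05_m_v_int_lt_one (A : ValuationSubring K) {q : ℕ} (hq : q.Prime)
    (hA : (q : K) ∈ A.nonunits) (n : ℤ) (hn : (q : ℤ) ∣ n) : A.valuation (n : K) < 1 := by
  rw [← A.mem_nonunits_iff, FA_S05_intCast_mem_nonunits_iff A hq hA]
  exact hn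

lemma FA_S05_m_v_two (A : ValuationSubring K) {q : ℕ} (hq : q.Prime) (hq2 : q ≠ 2)
    (hA : (q : K) ∈ A.nonunits) : A.valuation (2 : K) = 1 := by
  have := FA_S05_m_v_int_eq_one A hq hA 2 (by
    intro h
    have h' : q ∣ 2 := by exact_mod_cast h
    exact hq2 ((Nat.prime_dvd_prime_iff_eq hq Nat.prime_two).mp h'))
  simpa using this

variable [Algebra ℚ K]

/-- Curves `y² + xy = x³ + ((u-1)/4) x² + (dᵖ e/16) x` with `q ∣ d`, `q ∤ u e`: multiplicative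
reduction with node at `(0,0)`, and `v a₄ = v d ^ p`. -/
theorem FA_S05_m_mult_of_ints (W₀ : WeierstrassCurve ℚ) (u d e : ℤ) (p : ℕ)
    (h1 : W₀.a₁ = 1) (h2 : W₀.a₂ = ((u : ℚ) - 1) / 4) (h3 : W₀.a₃ = 0)
    (h4 : W₀.a₄ = (d : ℚ) ^ p * e / 16) (h6 : W₀.a₆ = 0)
    (A : ValuationSubring K) {q : ℕ} (hq : q.Prime) (hq2 : q ≠ 2) (hA : (q : K) ∈ A.nonunits)
    (hu : ¬ (q : ℤ) ∣ u) (hd : (q : ℤ) ∣ d) (he : ¬ (q : ℤ) ∣ e) (hd0 : d ≠ 0) (hp : p ≠ 0) :
    FA_S05_mMult (W₀⁄K) A.valuation ∧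
      A.valuation (W₀⁄K).a₄ = A.valuation (algebraMap ℚ K (d : ℚ)) ^ p := by
  have : CharZero K := algebraRat.charZero K
  have hv2 := FA_S05_m_v_two A hq hq2 hA
  have hv4 : A.valuation (4 : K) = 1 := by
    have : (4 : K) = 2 * 2 := by norm_num
    rw [this, map_mul, hv2, mul_one]
  have hv16 : A.valuation (16 : K) = 1 := by
    have : (16 : K) = 4 * 4 := by norm_num
    rw [this, map_mul, hv4, mul_one]
  have e1 : (W₀⁄K).a₁ = 1 := by
    simp [WeierstrassCurve.Affine.baseChange, h1]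
  have e2 : (W₀⁄K).a₂ = ((u : K) - 1) / 4 := by
    simp [WeierstrassCurve.Affine.baseChange, h2]
  have e3 : (W₀⁄K).a₃ = 0 := by
    simp [WeierstrassCurve.Affine.baseChange, h3]
  have e4 : (W₀⁄K).a₄ = (d : K) ^ p * e / 16 := by
    simp [WeierstrassCurve.Affine.baseChange, h4]
  have e6 : (W₀⁄K).a₆ = 0 := by
    simp [WeierstrassCurve.Affine.baseChange, h6]
  have hve := FA_S05_m_v_int_eq_one A hq hA e he
  have hvu := FA_S05_m_v_int_eq_one A hq hA u hu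
  have hvd := FA_S05_m_v_int_lt_one A hq hA d hd
  have hva4 : A.valuation (W₀⁄K).a₄ = A.valuation (d : K) ^ p := by
    rw [e4, map_div₀, map_mul, map_pow, hve, hv16, mul_one, div_one]
  refine ⟨⟨⟨e1, e3, e6⟩, ?_, ?_, ?_, hv2, ?_⟩, ?_⟩
  · rw [e2, map_div₀, hv4, div_one]
    exact (A.valuation_le_one_iff _).mpr (sub_mem (intCast_mem A u) (one_mem A))
  · rw [hva4]
    exact pow_lt_one₀ zero_le hvd hp
  · rw [e4]
    have hd0' : (d : K) ≠ 0 := by exact_mod_cast hd0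
    have he0 : (e : K) ≠ 0 := by
      intro h0
      rw [h0, map_zero] at hve
      exact zero_ne_one hve
    exact div_ne_zero (mul_ne_zero (pow_ne_zero _ hd0') he0) (by norm_num)
  · rw [e2]
    have : 1 + 4 * (((u : K) - 1) / 4) = u := by ring
    rw [this, hvu]
  · rw [hva4]
    simp

end ints

section equivariant

variable {K : Type*} [Field K] [DecidableEq K]
variable {R S : Type*} [CommRing R] [Field S] [Algebra R S] [Algebra R K]
  [Algebra S K] [IsScalarTower R S K]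

/-- The translation map commutes with the Galois action when `r`, `t` are fixed. -/
lemma FA_S05_mTranslMap_smul (W₁ W₂ : WeierstrassCurve.Affine R) {r t : K}
    (hT : FA_S05_mTransl (W₁⁄K) (W₂⁄K) r t) (σ : K ≃ₐ[S] K) (hr : σ r = r) (ht : σ t = t)
    (Q : (W₁⁄K).Point) :
    FA_S05_mTranslMap hT (σ • Q) = σ • FA_S05_mTranslMap hT Q := by
  rcases Q with _ | ⟨x, y, h⟩
  · rfl
  · obtain ⟨h', he⟩ := FA_S05_smul_some W₁ σ h
    rw [he, FA_S05_mTranslMap_some, FA_S05_mTranslMap_some]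
    obtain ⟨h'', he'⟩ := FA_S05_smul_some W₂ σ ((hT.nonsingular_iff x y).mpr h)
    rw [he']
    apply FA_S05_m_some_congr
    · rw [map_sub, hr]
    · rw [map_sub, ht]

omit [DecidableEq K] in
/-- Base change of a translation. -/
lemma FA_S05_mTransl_baseChange {F : Type*} [Field F] [Algebra F K]
    {W₁ W₂ : WeierstrassCurve.Affine F} {r t : F}
    (hT : FA_S05_mTransl W₁ W₂ r t) :
    FA_S05_mTransl (W₁⁄K) (W₂⁄K) (algebraMap F K r) (algebraMap F K t) where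
  a1 := by
    simp only [WeierstrassCurve.Affine.baseChange, WeierstrassCurve.baseChange,
      WeierstrassCurve.map_a₁, hT.a1]
  a2 := by
    simp only [WeierstrassCurve.Affine.baseChange, WeierstrassCurve.baseChange,
      WeierstrassCurve.map_a₂, hT.a2, map_add, map_mul, map_ofNat]
  a3 := by
    simp only [WeierstrassCurve.Affine.baseChange, WeierstrassCurve.baseChange,
      WeierstrassCurve.map_a₁, WeierstrassCurve.map_a₃, hT.a3, map_add, map_mul, map_ofNat]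
  a4 := by
    simp only [WeierstrassCurve.Affine.baseChange, WeierstrassCurve.baseChange,
      WeierstrassCurve.map_a₁, WeierstrassCurve.map_a₂, WeierstrassCurve.map_a₄, hT.a4,
      map_add, map_sub, map_mul, map_pow, map_ofNat]
  a6 := by
    simp only [WeierstrassCurve.Affine.baseChange, WeierstrassCurve.baseChange,
      WeierstrassCurve.map_a₁, WeierstrassCurve.map_a₂, WeierstrassCurve.map_a₃,
      WeierstrassCurve.map_a₄, WeierstrassCurve.map_a₆, hT.a6,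
      map_add, map_sub, map_mul, map_pow]

end equivariant

section frey

open FreyPackage

lemma FA_S05_m_not_dvd_of_gcd {a b : ℤ} (h : gcd a b = 1) {q : ℕ} (hq : q.Prime)
    (ha : (q : ℤ) ∣ a) : ¬ (q : ℤ) ∣ b := by
  intro hb
  have h1 : (q : ℤ) ∣ gcd a b := dvd_gcd ha hb
  rw [h] at h1
  exact (Nat.prime_iff_prime_int.mp hq).not_isUnit (isUnit_of_dvd_one h1)

lemma FA_S05_m_not_dvd_pow {b : ℤ} {q : ℕ} (hq : q.Prime) (hb : ¬ (q : ℤ) ∣ b) (n : ℕ) :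
    ¬ (q : ℤ) ∣ b ^ n := fun h => hb ((Nat.prime_iff_prime_int.mp hq).dvd_of_dvd_pow h)

variable {K : Type*} [Field K] [Algebra ℚ K] [DecidableEq K] [IsAlgClosed K]

/-- Multiplicative case, `q ∣ a`. -/
theorem FA_S05_frey_mult_a (P : FreyPackage) {q : ℕ} (hq : q.Prime) (hq2 : q ≠ 2)
    (hqp : q ≠ P.p) (hqa : (q : ℤ) ∣ P.a)
    (A : ValuationSubring K) (hA : (q : K) ∈ A.nonunits)
    (σ : K ≃ₐ[ℚ] K) (hσ : σ ∈ A.inertiaSubgroupIn ℚ)
    (Q : (P.freyCurve⁄K).Point) (hQ : P.p • Q = 0) : σ • Q = Q := by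
  have hb : ¬ (q : ℤ) ∣ P.b := FA_S05_m_not_dvd_of_gcd P.hgcdab hq hqa
  have hu : ¬ (q : ℤ) ∣ P.b ^ P.p - P.a ^ P.p := by
    intro h
    have h2 : (q : ℤ) ∣ P.a ^ P.p := dvd_pow hqa P.hp0
    have h3 : (q : ℤ) ∣ P.b ^ P.p := by
      have := dvd_add h h2
      simpa using this
    exact FA_S05_m_not_dvd_pow hq hb _ h3
  have he : ¬ (q : ℤ) ∣ -(P.b ^ P.p) := by
    rw [dvd_neg]
    exact FA_S05_m_not_dvd_pow hq hb _
  obtain ⟨hW, hv⟩ := FA_S05_m_mult_of_ints (K := K) P.freyCurve (P.b ^ P.p - P.a ^ P.p) P.a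
    (-(P.b ^ P.p)) P.p rfl (by simp only [freyCurve]; push_cast; ring) rfl
    (by simp only [freyCurve]; push_cast; ring) rfl A hq hq2 hA hu hqa he P.ha0 P.hp0
  have hp : ((P.p : ℕ) : K) ∉ A.nonunits := by
    rw [FA_S05_natCast_mem_nonunits_iff A hq hA]
    intro h
    exact hqp ((Nat.prime_dvd_prime_iff_eq hq P.pp).mp h)
  exact FA_S05_m_inertia_fixed P.freyCurve A hW σ hσ P.p hp (P.a : ℚ) hv Q hQ

/-- Multiplicative case, `q ∣ b`. -/
theorem FA_S05_frey_mult_b (P : FreyPackage) {q : ℕ} (hq : q.Prime) (hq2 : q ≠ 2)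
    (hqp : q ≠ P.p) (hqb : (q : ℤ) ∣ P.b)
    (A : ValuationSubring K) (hA : (q : K) ∈ A.nonunits)
    (σ : K ≃ₐ[ℚ] K) (hσ : σ ∈ A.inertiaSubgroupIn ℚ)
    (Q : (P.freyCurve⁄K).Point) (hQ : P.p • Q = 0) : σ • Q = Q := by
  have ha : ¬ (q : ℤ) ∣ P.a :=
    FA_S05_m_not_dvd_of_gcd (by rw [gcd_comm]; exact P.hgcdab) hq hqb
  have hu : ¬ (q : ℤ) ∣ P.b ^ P.p - P.a ^ P.p := by
    intro h
    have h2 : (q : ℤ) ∣ P.b ^ P.p := dvd_pow hqb P.hp0
    have h3 : (q : ℤ) ∣ P.a ^ P.p := by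
      have := dvd_sub h2 h
      simpa using this
    exact FA_S05_m_not_dvd_pow hq ha _ h3
  have he : ¬ (q : ℤ) ∣ -(P.a ^ P.p) := by
    rw [dvd_neg]
    exact FA_S05_m_not_dvd_pow hq ha _
  obtain ⟨hW, hv⟩ := FA_S05_m_mult_of_ints (K := K) P.freyCurve (P.b ^ P.p - P.a ^ P.p) P.b
    (-(P.a ^ P.p)) P.p rfl (by simp only [freyCurve]; push_cast; ring) rfl
    (by simp only [freyCurve]; push_cast; ring) rfl A hq hq2 hA hu hqb he P.hb0 P.hp0
  have hp : ((P.p : ℕ) : K) ∉ A.nonunits := by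
    rw [FA_S05_natCast_mem_nonunits_iff A hq hA]
    intro h
    exact hqp ((Nat.prime_dvd_prime_iff_eq hq P.pp).mp h)
  exact FA_S05_m_inertia_fixed P.freyCurve A hW σ hσ P.p hp (P.b : ℚ) hv Q hQ

/-- The Frey curve translated by the 2-torsion point `(aᵖ/4, -aᵖ/8)`. -/
def FA_S05_mFrey2 (P : FreyPackage) : WeierstrassCurve ℚ where
  a₁ := 1
  a₂ := ((P.c : ℚ) ^ P.p + (P.a : ℚ) ^ P.p - 1) / 4
  a₃ := 0
  a₄ := (P.a : ℚ) ^ P.p * (P.c : ℚ) ^ P.p / 16
  a₆ := 0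

lemma FA_S05_mFrey2_transl (P : FreyPackage) :
    FA_S05_mTransl (K := ℚ) P.freyCurve (FA_S05_mFrey2 P) ((P.a : ℚ) ^ P.p / 4)
      (-(P.a : ℚ) ^ P.p / 8) := by
  have hFLT : ((P.a : ℚ)) ^ P.p + (P.b : ℚ) ^ P.p = (P.c : ℚ) ^ P.p := by
    exact_mod_cast P.hFLT
  constructor
  · rfl
  · simp only [FA_S05_mFrey2, freyCurve]
    linear_combination (-1 / 4 : ℚ) * hFLT
  · simp only [FA_S05_mFrey2, freyCurve]
    ring
  · simp only [FA_S05_mFrey2, freyCurve]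
    linear_combination (-(P.a : ℚ) ^ P.p / 16) * hFLT
  · simp only [FA_S05_mFrey2, freyCurve]
    ring

/-- Multiplicative case, `q ∣ c`. -/
theorem FA_S05_frey_mult_c (P : FreyPackage) {q : ℕ} (hq : q.Prime) (hq2 : q ≠ 2)
    (hqp : q ≠ P.p) (hqc : (q : ℤ) ∣ P.c)
    (A : ValuationSubring K) (hA : (q : K) ∈ A.nonunits)
    (σ : K ≃ₐ[ℚ] K) (hσ : σ ∈ A.inertiaSubgroupIn ℚ)
    (Q : (P.freyCurve⁄K).Point) (hQ : P.p • Q = 0) : σ • Q = Q := by
  have ha : ¬ (q : ℤ) ∣ P.a :=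
    FA_S05_m_not_dvd_of_gcd (by rw [gcd_comm]; exact P.hgcdac) hq hqc
  have hu : ¬ (q : ℤ) ∣ P.c ^ P.p + P.a ^ P.p := by
    intro h
    have h2 : (q : ℤ) ∣ P.c ^ P.p := dvd_pow hqc P.hp0
    have h3 : (q : ℤ) ∣ P.a ^ P.p := by
      have := dvd_sub h h2
      simpa using this
    exact FA_S05_m_not_dvd_pow hq ha _ h3
  have he : ¬ (q : ℤ) ∣ P.a ^ P.p := FA_S05_m_not_dvd_pow hq ha _
  obtain ⟨hW, hv⟩ := FA_S05_m_mult_of_ints (K := K) (FA_S05_mFrey2 P) (P.c ^ P.p + P.a ^ P.p)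
    P.c (P.a ^ P.p) P.p rfl (by simp only [FA_S05_mFrey2]; push_cast; ring) rfl
    (by simp only [FA_S05_mFrey2]; push_cast; ring) rfl A hq hq2 hA hu hqc he P.hc0 P.hp0
  have hp : ((P.p : ℕ) : K) ∉ A.nonunits := by
    rw [FA_S05_natCast_mem_nonunits_iff A hq hA]
    intro h
    exact hqp ((Nat.prime_dvd_prime_iff_eq hq P.pp).mp h)
  have hT := FA_S05_mTransl_baseChange (K := K) (FA_S05_mFrey2_transl P)
  have h1 : P.p • FA_S05_mTranslMap hT Q = 0 := by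
    rw [← map_nsmul, hQ, map_zero]
  have h2 := FA_S05_m_inertia_fixed (FA_S05_mFrey2 P) A hW σ hσ P.p hp (P.c : ℚ) hv _ h1
  rw [← FA_S05_mTranslMap_smul (S := ℚ) P.freyCurve (FA_S05_mFrey2 P) hT σ (σ.commutes _)
    (σ.commutes _)] at h2
  exact FA_S05_mTranslMap_injective hT h2

end frey

end Fermat.Agent.S05
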