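import Fermat.Agent.S05.KL

/-!
# S05 library L: closeness lemma L2 (helper9)

Two integral points with the same nonsingular reduction differ by an element of the kernel
of reduction.
-/

namespace Fermat.Agent.S05

open WeierstrassCurve

variable {K : Type*} [Field K] {Γ₀ : Type*} [LinearOrderedCommGroupWithZero Γ₀]
  {v : Valuation K Γ₀}

/-- Second expression for the slope, valid in the chord and the tangent case. -/
lemma FA_S05_slope_alt [DecidableEq K] {W : WeierstrassCurve.Affine K} {x₁ x₂ y₁ y₂ : K}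
    (h₁ : W.Equation x₁ y₁) (h₂ : W.Equation x₂ y₂)
    (hxy : ¬(x₁ = x₂ ∧ y₁ = W.negY x₂ y₂)) :
    W.slope x₁ x₂ y₁ y₂ * (y₁ + y₂ + W.a₁ * x₂ + W.a₃)
      = x₁ ^ 2 + x₁ * x₂ + x₂ ^ 2 + W.a₂ * (x₁ + x₂) + W.a₄ - W.a₁ * y₁ := by
  by_cases hx : x₁ = x₂
  · have hy : y₁ ≠ W.negY x₂ y₂ := fun h => hxy ⟨hx, h⟩
    have hyy := Affine.Y_eq_of_Y_ne h₁ h₂ hx hy
    subst hx
    subst hyy
    rw [Affine.slope_of_Y_ne rfl hy]
    have hM : y₁ - W.negY x₁ y₁ ≠ 0 := sub_ne_zero.mpr hy
    have : y₁ + y₁ + W.a₁ * x₁ + W.a₃ = y₁ - W.negY x₁ y₁ := by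
      rw [Affine.negY]; ring
    rw [this, div_mul_cancel₀ _ hM]
    ring
  · rw [Affine.slope_of_X_ne hx]
    have hxx : x₁ - x₂ ≠ 0 := sub_ne_zero.mpr hx
    rw [Affine.equation_iff] at h₁ h₂
    rw [div_mul_eq_mul_div, div_eq_iff hxx]
    linear_combination h₁ - h₂

/-- If the slope has valuation `> 1` and the two points are integral, the sum is in the kernel
of reduction. -/
lemma FA_S05_addX_of_slope {W : WeierstrassCurve.Affine K} (hW : FA_S05_VInt v W)
    {x₁ x₂ ℓ : K} (hx₁ : v x₁ ≤ 1) (hx₂ : v x₂ ≤ 1) (hl : 1 < v ℓ) :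
    1 < v (W.addX x₁ x₂ ℓ) := by
  obtain ⟨h1, h2, h3, h4, h6⟩ := hW
  have hl0 : (0 : Γ₀) < v ℓ := lt_trans zero_lt_one hl
  have hll : v ℓ < v (ℓ ^ 2) := by
    rw [map_pow, pow_two]
    calc v ℓ = v ℓ * 1 := (mul_one _).symm
      _ < v ℓ * v ℓ := mul_lt_mul_of_pos_left hl hl0
  have hrest : v (W.a₁ * ℓ - W.a₂ - x₁ - x₂) < v (ℓ ^ 2) := by
    refine lt_of_le_of_lt ?_ hll
    refine v.map_sub_le (v.map_sub_le (v.map_sub_le ?_ ?_) ?_) ?_
    · exact FA_S05_v_mul_left v h1 le_rfl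
    · exact le_trans h2 hl.le
    · exact le_trans hx₁ hl.le
    · exact le_trans hx₂ hl.le
  have hid : W.addX x₁ x₂ ℓ = ℓ ^ 2 + (W.a₁ * ℓ - W.a₂ - x₁ - x₂) := by
    rw [Affine.addX]; ring
  rw [hid, v.map_add_eq_of_lt_left hrest]
  exact lt_trans hl hll

/-- **L2 (closeness)**, coordinate form: `(x', y') + (x, negY x y)` is in the kernel of
reduction when `(x', y') ≡ (x, y)` and the reduction of `(x, y)` is nonsingular. -/
lemma FA_S05_close_coord [DecidableEq K] {W : WeierstrassCurve.Affine K}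
    (hW : FA_S05_VInt v W) {x y x' y' : K}
    (h : W.Equation x y) (h' : W.Equation x' y')
    (hx : v x ≤ 1) (hy : v y ≤ 1) (hxx : v (x' - x) < 1) (hyy : v (y' - y) < 1)
    (hns : 1 ≤ v (W.a₁ * y - (3 * x ^ 2 + 2 * W.a₂ * x + W.a₄)) ∨
      1 ≤ v (2 * y + W.a₁ * x + W.a₃))
    (hxy : ¬(x' = x ∧ y' = W.negY x (W.negY x y))) :
    1 < v (W.addX x' x (W.slope x' x y' (W.negY x y))) := by
  have hW' := hW
  obtain ⟨h1, h2, h3, h4, h6⟩ := hW
  have hneg : W.Equation x (W.negY x y) := (Affine.equation_neg x y).mpr h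
  have hx' : v x' ≤ 1 := by
    have : x' = (x' - x) + x := by ring
    rw [this]
    exact v.map_add_le hxx.le hx
  have hy' : v y' ≤ 1 := by
    have : y' = (y' - y) + y := by ring
    rw [this]
    exact v.map_add_le hyy.le hy
  apply FA_S05_addX_of_slope hW' hx' hx
  have hline := FA_S05_line h' hneg hxy
  have halt := FA_S05_slope_alt h' hneg hxy
  set ℓ := W.slope x' x y' (W.negY x y) with hℓ
  rcases hns with hFx | hFy
  · -- `F_x` is a unit: use the alternative expression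
    have e1 : y' + W.negY x y + W.a₁ * x + W.a₃ = y' - y := by
      rw [Affine.negY]; ring
    rw [e1] at halt
    have hG : v (x' ^ 2 + x' * x + x ^ 2 + W.a₂ * (x' + x) + W.a₄ - W.a₁ * y') = 1 := by
      have e2 : x' ^ 2 + x' * x + x ^ 2 + W.a₂ * (x' + x) + W.a₄ - W.a₁ * y'
          = -(W.a₁ * y - (3 * x ^ 2 + 2 * W.a₂ * x + W.a₄))
            + ((x' - x) * (x' + 2 * x + W.a₂) - W.a₁ * (y' - y)) := by ring
      have hsmall : v ((x' - x) * (x' + 2 * x + W.a₂) - W.a₁ * (y' - y)) < 1 := by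
        refine v.map_sub_lt ?_ ?_
        · refine lt_of_le_of_lt (FA_S05_v_mul_right v le_rfl ?_) hxx
          refine v.map_add_le (v.map_add_le hx' ?_) h2
          exact FA_S05_v_mul_left v (FA_S05_v_two v) hx
        · exact lt_of_le_of_lt (FA_S05_v_mul_left v h1 le_rfl) hyy
      have hFx1 : v (W.a₁ * y - (3 * x ^ 2 + 2 * W.a₂ * x + W.a₄)) = 1 := by
        refine le_antisymm ?_ hFx
        refine v.map_sub_le (FA_S05_v_mul_left v h1 hy) (v.map_add_le (v.map_add_le ?_ ?_) h4)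
        · exact FA_S05_v_mul_left v (FA_S05_v_three v) (by
            rw [map_pow]; exact pow_le_one' hx 2)
        · rw [mul_assoc]
          exact FA_S05_v_mul_left v (FA_S05_v_two v) (FA_S05_v_mul_left v h2 hx)
      rw [e2]
      rw [v.map_add_eq_of_lt_left (by rw [v.map_neg, hFx1]; exact hsmall), v.map_neg, hFx1]
    have hprod := congrArg v halt
    rw [map_mul, hG] at hprod
    have hyy0 : v (y' - y) ≠ 0 := by
      intro h0
      rw [h0, mul_zero] at hprod
      exact zero_ne_one hprod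
    have hyypos : (0 : Γ₀) < v (y' - y) := zero_lt_iff.mpr hyy0
    by_contra hcon
    rw [not_lt] at hcon
    have : v ℓ * v (y' - y) < 1 := by
      calc v ℓ * v (y' - y) ≤ 1 * v (y' - y) := mul_le_mul' hcon le_rfl
        _ = v (y' - y) := one_mul _
        _ < 1 := hyy
    rw [hprod] at this
    exact lt_irrefl _ this
  · -- `F_y` is a unit: use the chord expression
    have e1 : ℓ * (x' - x) = (y' - y) + (2 * y + W.a₁ * x + W.a₃) := by
      have : W.negY x y = -y - W.a₁ * x - W.a₃ := rfl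
      rw [this] at hline
      linear_combination hline
    have hFy1 : v (2 * y + W.a₁ * x + W.a₃) = 1 := by
      refine le_antisymm ?_ hFy
      exact v.map_add_le (v.map_add_le (FA_S05_v_mul_left v (FA_S05_v_two v) hy)
        (FA_S05_v_mul_left v h1 hx)) h3
    have hG : v ((y' - y) + (2 * y + W.a₁ * x + W.a₃)) = 1 := by
      rw [v.map_add_eq_of_lt_right (by rw [hFy1]; exact hyy), hFy1]
    have hprod := congrArg v e1
    rw [map_mul, hG] at hprod
    by_contra hcon
    rw [not_lt] at hcon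
    have hxx0 : v (x' - x) ≠ 0 := by
      intro h0
      rw [h0, mul_zero] at hprod
      exact zero_ne_one hprod
    have : v ℓ * v (x' - x) < 1 := by
      calc v ℓ * v (x' - x) ≤ 1 * v (x' - x) := mul_le_mul' hcon le_rfl
        _ = v (x' - x) := one_mul _
        _ < 1 := hxx
    rw [hprod] at this
    exact lt_irrefl _ this

/-- **L2 (closeness)**, point form. -/
theorem FA_S05_close_v [DecidableEq K] {W : WeierstrassCurve.Affine K}
    (hW : FA_S05_VInt v W) {x y x' y' : K}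
    (h : W.Nonsingular x y) (h' : W.Nonsingular x' y')
    (hx : v x ≤ 1) (hy : v y ≤ 1) (hxx : v (x' - x) < 1) (hyy : v (y' - y) < 1)
    (hns : 1 ≤ v (W.polynomialX.evalEval x y) ∨ 1 ≤ v (W.polynomialY.evalEval x y)) :
    FA_S05_E1v v (Affine.Point.some x' y' h' - Affine.Point.some x y h) := by
  rw [Affine.evalEval_polynomialX, Affine.evalEval_polynomialY] at hns
  rw [sub_eq_add_neg, Affine.Point.neg_some]
  by_cases hxy : x' = x ∧ y' = W.negY x (W.negY x y)
  · rw [Affine.Point.add_of_Y_eq hxy.1 hxy.2]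
    exact trivial
  · rw [Affine.Point.add_some hxy]
    exact FA_S05_close_coord hW h.1 h'.1 hx hy hxx hyy hns hxy

end Fermat.Agent.S05
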