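import Fermat.Agent.S05.Interface

/-!
# S05 library L: inertia facts G0 (helper9)
-/

namespace Fermat.Agent.S05

variable {F K : Type*} [Field F] [Field K] [Algebra F K]

/-- Elements of the decomposition group preserve `A`. -/
theorem FA_S05_decomp_mem (A : ValuationSubring K) (σ : K ≃ₐ[F] K)
    (hσ : σ ∈ A.decompositionSubgroup F) {x : K} (hx : x ∈ A) : σ x ∈ A := by
  have h := (A.subMulAction F).smul_mem' ⟨σ, hσ⟩ (x := x) hx
  exact h

theorem FA_S05_inertiaIn_le_decomp (A : ValuationSubring K) (σ : K ≃ₐ[F] K)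
    (hσ : σ ∈ A.inertiaSubgroupIn F) : σ ∈ A.decompositionSubgroup F := by
  obtain ⟨τ, _, rfl⟩ := hσ
  exact τ.2

/-- **G0**: an element of the inertia group preserves `A` and acts trivially modulo the
maximal ideal. -/
theorem FA_S05_G0 (A : ValuationSubring K) (σ : K ≃ₐ[F] K)
    (hσ : σ ∈ A.inertiaSubgroupIn F) (x : K) (hx : x ∈ A) :
    σ x ∈ A ∧ σ x - x ∈ A.nonunits := by
  obtain ⟨τ, hτ, rfl⟩ := hσ
  refine ⟨FA_S05_decomp_mem A _ τ.2 hx, ?_⟩
  have h1 : MulSemiringAction.toRingAut (A.decompositionSubgroup F)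
      (IsLocalRing.ResidueField A) τ = 1 := hτ
  have h2 := congrArg (fun f => f (IsLocalRing.residue A ⟨x, hx⟩)) h1
  simp only [MulSemiringAction.toRingAut_apply, RingAut.one_apply] at h2
  have h3 : IsLocalRing.residue A (τ • (⟨x, hx⟩ : A)) = IsLocalRing.residue A ⟨x, hx⟩ := by
    rw [← h2]
    rfl
  have h4 : τ • (⟨x, hx⟩ : A) - ⟨x, hx⟩ ∈ IsLocalRing.maximalIdeal A := by
    rw [← Ideal.Quotient.eq]
    exact h3
  have h5 := (A.coe_mem_nonunits_iff).mpr h4
  exact h5

/-- An element of the decomposition group reflects membership in `A`. -/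
theorem FA_S05_decomp_mem_iff (A : ValuationSubring K) (σ : K ≃ₐ[F] K)
    (hσ : σ ∈ A.decompositionSubgroup F) {x : K} : σ x ∈ A ↔ x ∈ A := by
  constructor
  · intro h
    have h' := FA_S05_decomp_mem A σ⁻¹ (inv_mem hσ) h
    have : σ⁻¹ (σ x) = x := σ.symm_apply_apply x
    rwa [this] at h'
  · exact FA_S05_decomp_mem A σ hσ

/-- An element of the decomposition group preserves the maximal ideal. -/
theorem FA_S05_decomp_nonunits_iff (A : ValuationSubring K) (σ : K ≃ₐ[F] K)
    (hσ : σ ∈ A.decompositionSubgroup F) {x : K} : σ x ∈ A.nonunits ↔ x ∈ A.nonunits := by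
  rw [ValuationSubring.mem_nonunits_iff_or, ValuationSubring.mem_nonunits_iff_or]
  rw [← map_inv₀, FA_S05_decomp_mem_iff A σ hσ]
  simp

end Fermat.Agent.S05
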