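import Fermat.Agent.S05.L3

/-!
# S05 library L: the good reduction case L4 (helper9)

If the discriminant of `W` is a unit of `A`, every point is in the kernel of reduction or is
integral with nonsingular reduction; hence inertia acts trivially on the `n`-torsion for `n` a
unit of `A`.
-/

namespace Fermat.Agent.S05

open WeierstrassCurve
open scoped WeierstrassCurve.Affine

variable {K : Type*} [Field K] {Γ₀ : Type*} [LinearOrderedCommGroupWithZero Γ₀]
  {v : Valuation K Γ₀}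

/-- An affine point with integral `x` has integral `y`. -/
lemma FA_S05_y_int {W : WeierstrassCurve.Affine K} (hW : FA_S05_VInt v W) {x y : K}
    (h : W.Equation x y) (hx : v x ≤ 1) : v y ≤ 1 := by
  obtain ⟨h1, h2, h3, h4, h6⟩ := hW
  by_contra hcon
  rw [not_le] at hcon
  rw [Affine.equation_iff] at h
  have hy0 : (0 : Γ₀) < v y := lt_trans zero_lt_one hcon
  have hy2 : y ^ 2 = x ^ 3 + W.a₂ * x ^ 2 + W.a₄ * x + W.a₆ - W.a₁ * x * y - W.a₃ * y := by
    linear_combination h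
  have hle : v (y ^ 2) ≤ v y := by
    rw [hy2]
    refine v.map_sub_le (v.map_sub_le (v.map_add_le (v.map_add_le (v.map_add_le ?_ ?_) ?_) ?_)
      ?_) ?_
    · rw [map_pow]; exact le_trans (pow_le_one' hx 3) hcon.le
    · refine le_trans (FA_S05_v_mul_left v h2 ?_) hcon.le
      rw [map_pow]; exact pow_le_one' hx 2
    · exact le_trans (FA_S05_v_mul_left v h4 hx) hcon.le
    · exact le_trans h6 hcon.le
    · rw [mul_assoc]
      exact FA_S05_v_mul_left v h1 (FA_S05_v_mul_left v hx le_rfl)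
    · exact FA_S05_v_mul_left v h3 le_rfl
  rw [map_pow, pow_two] at hle
  have : v y < v y * v y := by
    calc v y = v y * 1 := (mul_one _).symm
      _ < v y * v y := mul_lt_mul_of_pos_left hcon hy0
  exact absurd hle (not_le.mpr this)

/-- The discriminant in terms of the partial derivatives at a point. -/
lemma FA_S05_Δ_formula (W : WeierstrassCurve.Affine K) (x y : K) :
    W.Δ =
      -(W.a₁ ^ 2 + 4 * (W.a₂ + 3 * x)) ^ 2 *
        (-(W.a₁ ^ 2 + 4 * (W.a₂ + 3 * x)) *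
            (y ^ 2 + W.a₁ * x * y + W.a₃ * y - (x ^ 3 + W.a₂ * x ^ 2 + W.a₄ * x + W.a₆))
          + W.a₁ * (2 * y + W.a₁ * x + W.a₃) * (W.a₁ * y - (3 * x ^ 2 + 2 * W.a₂ * x + W.a₄))
          + (W.a₂ + 3 * x) * (2 * y + W.a₁ * x + W.a₃) ^ 2
          - (W.a₁ * y - (3 * x ^ 2 + 2 * W.a₂ * x + W.a₄)) ^ 2)
      - 8 * (-2 * (W.a₁ * y - (3 * x ^ 2 + 2 * W.a₂ * x + W.a₄))
          + W.a₁ * (2 * y + W.a₁ * x + W.a₃)) ^ 3
      - 27 * ((2 * y + W.a₁ * x + W.a₃) ^ 2
          - 4 * (y ^ 2 + W.a₁ * x * y + W.a₃ * y - (x ^ 3 + W.a₂ * x ^ 2 + W.a₄ * x + W.a₆))) ^ 2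
      + 9 * (W.a₁ ^ 2 + 4 * (W.a₂ + 3 * x)) *
          (-2 * (W.a₁ * y - (3 * x ^ 2 + 2 * W.a₂ * x + W.a₄))
            + W.a₁ * (2 * y + W.a₁ * x + W.a₃)) *
          ((2 * y + W.a₁ * x + W.a₃) ^ 2
          - 4 * (y ^ 2 + W.a₁ * x * y + W.a₃ * y - (x ^ 3 + W.a₂ * x ^ 2 + W.a₄ * x + W.a₆))) := by
  simp only [WeierstrassCurve.Δ, WeierstrassCurve.b₂, WeierstrassCurve.b₄, WeierstrassCurve.b₆,
    WeierstrassCurve.b₈]
  ring

/-- At an integral point with singular reduction the discriminant is a nonunit. -/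
lemma FA_S05_Δ_small {W : WeierstrassCurve.Affine K} (hW : FA_S05_VInt v W) {x y : K}
    (h : W.Equation x y) (hx : v x ≤ 1) (_hy : v y ≤ 1)
    (hFx : v (W.a₁ * y - (3 * x ^ 2 + 2 * W.a₂ * x + W.a₄)) < 1)
    (hFy : v (2 * y + W.a₁ * x + W.a₃) < 1) : v W.Δ < 1 := by
  obtain ⟨h1, h2, h3, h4, h6⟩ := hW
  rw [Affine.equation_iff] at h
  have hF : y ^ 2 + W.a₁ * x * y + W.a₃ * y - (x ^ 3 + W.a₂ * x ^ 2 + W.a₄ * x + W.a₆) = 0 :=
    sub_eq_zero.mpr h
  rw [FA_S05_Δ_formula W x y, hF]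
  set Fx := W.a₁ * y - (3 * x ^ 2 + 2 * W.a₂ * x + W.a₄) with hFxdef
  set Fy := 2 * y + W.a₁ * x + W.a₃ with hFydef
  have hb2 : v (W.a₁ ^ 2 + 4 * (W.a₂ + 3 * x)) ≤ 1 := by
    refine v.map_add_le ?_ ?_
    · rw [map_pow]; exact pow_le_one' h1 2
    · have h4' : v (4 : K) ≤ 1 := by
        have := FA_S05_v_natCast v 4
        simpa using this
      exact FA_S05_v_mul_left v h4' (v.map_add_le h2 (FA_S05_v_mul_left v (FA_S05_v_three v) hx))
  have ha23 : v (W.a₂ + 3 * x) ≤ 1 :=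
    v.map_add_le h2 (FA_S05_v_mul_left v (FA_S05_v_three v) hx)
  have hb4 : v (-2 * Fx + W.a₁ * Fy) < 1 := by
    refine v.map_add_lt ?_ ?_
    · rw [neg_mul, v.map_neg]
      exact lt_of_le_of_lt (FA_S05_v_mul_left v (FA_S05_v_two v) le_rfl) hFx
    · exact lt_of_le_of_lt (FA_S05_v_mul_left v h1 le_rfl) hFy
  have hFy2 : v (Fy ^ 2) < 1 := by
    rw [map_pow]; exact FA_S05_lt_one_pow hFy two_ne_zero
  have hFx2 : v (Fx ^ 2) < 1 := by
    rw [map_pow]; exact FA_S05_lt_one_pow hFx two_ne_zero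
  have hb6 : v (Fy ^ 2 - 4 * 0) < 1 := by
    rw [mul_zero, sub_zero]; exact hFy2
  have hb8 : v (-(W.a₁ ^ 2 + 4 * (W.a₂ + 3 * x)) * 0 + W.a₁ * Fy * Fx + (W.a₂ + 3 * x) * Fy ^ 2
      - Fx ^ 2) < 1 := by
    rw [mul_zero, zero_add]
    refine v.map_sub_lt (v.map_add_lt ?_ ?_) hFx2
    · rw [mul_assoc]
      exact lt_of_le_of_lt (FA_S05_v_mul_left v h1 (FA_S05_v_mul_right v le_rfl hFx.le)) hFy
    · exact lt_of_le_of_lt (FA_S05_v_mul_left v ha23 le_rfl) hFy2
  have h8 : v (8 : K) ≤ 1 := by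
    have := FA_S05_v_natCast v 8
    simpa using this
  have h27 : v (27 : K) ≤ 1 := by
    have := FA_S05_v_natCast v 27
    simpa using this
  have h9 : v (9 : K) ≤ 1 := by
    have := FA_S05_v_natCast v 9
    simpa using this
  refine v.map_add_lt (v.map_sub_lt (v.map_sub_lt ?_ ?_) ?_) ?_
  · refine lt_of_le_of_lt (FA_S05_v_mul_left v ?_ le_rfl) hb8
    rw [v.map_neg, map_pow]; exact pow_le_one' hb2 2
  · refine lt_of_le_of_lt (FA_S05_v_mul_left v h8 le_rfl) ?_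
    rw [map_pow]; exact FA_S05_lt_one_pow hb4 (by norm_num)
  · refine lt_of_le_of_lt (FA_S05_v_mul_left v h27 le_rfl) ?_
    rw [map_pow]; exact FA_S05_lt_one_pow hb6 two_ne_zero
  · rw [mul_assoc]
    refine lt_of_le_of_lt (FA_S05_v_mul_left v (FA_S05_v_mul_left v h9 hb2) le_rfl) ?_
    exact lt_of_le_of_lt (FA_S05_v_mul_left v hb4.le le_rfl) hb6

/-- **Good reduction**: every point is in the kernel of reduction or is integral with
nonsingular reduction. -/
theorem FA_S05_E1_or_NS (A : ValuationSubring K) {W : WeierstrassCurve.Affine K}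
    (hW : FA_S05_Integral A W) (hΔ : W.Δ ∉ A.nonunits) (P : W.Point) :
    FA_S05_E1 A P ∨ FA_S05_NS A P := by
  rcases P with _ | ⟨x, y, h⟩
  · exact Or.inl (Or.inl rfl)
  · by_cases hx : x ∈ A
    · right
      have hV := FA_S05_VInt_of_Integral hW
      have hxv : A.valuation x ≤ 1 := (A.valuation_le_one_iff _).mpr hx
      have hyv : A.valuation y ≤ 1 := FA_S05_y_int hV h.1 hxv
      rw [FA_S05_NS_some]
      refine ⟨hx, (A.valuation_le_one_iff _).mp hyv, ?_⟩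
      by_contra hcon
      rw [not_or, not_not, not_not, Affine.evalEval_polynomialX, Affine.evalEval_polynomialY,
        A.mem_nonunits_iff, A.mem_nonunits_iff] at hcon
      exact hΔ (A.mem_nonunits_iff.mpr (FA_S05_Δ_small hV h.1 hxv hyv hcon.1 hcon.2))
    · left
      exact (FA_S05_E1_some A h).mpr hx

section galois

variable {R S : Type*} [CommRing R] [Field S] [DecidableEq K] [Algebra R S] [Algebra R K]
  [Algebra S K] [IsScalarTower R S K]

/-- **L4 (good reduction)**: if `Δ` and `n` are units of `A`, the inertia group acts trivially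
on the `n`-torsion points. -/
theorem FA_S05_good (W' : WeierstrassCurve.Affine R) (A : ValuationSubring K)
    (hW : FA_S05_Integral A (W'⁄K)) (hΔ : (W'⁄K).Δ ∉ A.nonunits) (n : ℕ)
    (hn : (n : K) ∉ A.nonunits) (σ : K ≃ₐ[S] K) (hσ : σ ∈ A.inertiaSubgroupIn S)
    (P : (W'⁄K).Point) (hnP : n • P = 0) : σ • P = P := by
  have h1 := FA_S05_L3 W' A hW σ hσ P (FA_S05_E1_or_NS A hW hΔ P)
  have hnσ : n • (σ • P) = 0 := by
    rw [← smul_comm, hnP, smul_zero]
  exact FA_S05_eq_of_sub_E1 A _ hW n hn (σ • P) P h1 hnσ hnP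

/-- General principle used in all cases: if `P` is `n`-torsion (`n` a unit of `A`) and
`P ∈ E₁ ∪ NS`, then inertia fixes `P`. -/
theorem FA_S05_fixed_of_E1_or_NS (W' : WeierstrassCurve.Affine R) (A : ValuationSubring K)
    (hW : FA_S05_Integral A (W'⁄K)) (n : ℕ)
    (hn : (n : K) ∉ A.nonunits) (σ : K ≃ₐ[S] K) (hσ : σ ∈ A.inertiaSubgroupIn S)
    (P : (W'⁄K).Point) (hP : FA_S05_E1 A P ∨ FA_S05_NS A P) (hnP : n • P = 0) : σ • P = P := by
  have h1 := FA_S05_L3 W' A hW σ hσ P hP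
  have hnσ : n • (σ • P) = 0 := by
    rw [← smul_comm, hnP, smul_zero]
  exact FA_S05_eq_of_sub_E1 A _ hW n hn (σ • P) P h1 hnσ hnP

end galois

end Fermat.Agent.S05
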