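import Mathlib.AlgebraicGeometry.EllipticCurve.Affine.Point
import Mathlib.RingTheory.Valuation.ValuationSubring
import Mathlib.RingTheory.Valuation.RamificationGroup
import Fermat.Prelude.Def_FLTPrelim_Ramification

/-!
# S05 library L: interface (helper9)

Definitions used by the library L (kernel of reduction, closeness, good reduction) for S05.
`K` is a field, `A : ValuationSubring K`, `W : WeierstrassCurve.Affine K`.

* `FA_S05_Integral A W` : the five coefficients of `W` lie in `A`.
* `FA_S05_E1 A P` : `P` is in the kernel of reduction (`P = 0` or `x(P) ∉ A`).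
* `FA_S05_NS A P` : `P` is an affine point with coordinates in `A` whose reduction is a
  nonsingular point of the reduced curve.
-/

namespace Fermat.Agent.S05

open WeierstrassCurve

variable {K : Type*} [Field K]

/-- The five coefficients of `W` lie in the valuation subring `A`. -/
def FA_S05_Integral (A : ValuationSubring K) (W : WeierstrassCurve.Affine K) : Prop :=
  W.a₁ ∈ A ∧ W.a₂ ∈ A ∧ W.a₃ ∈ A ∧ W.a₄ ∈ A ∧ W.a₆ ∈ A

/-- The kernel of reduction: the point at infinity, or an affine point with `x ∉ A`. -/
def FA_S05_E1 (A : ValuationSubring K) {W : WeierstrassCurve.Affine K} (P : W.Point) : Prop :=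
  P = 0 ∨ ∃ (x y : K) (h : W.Nonsingular x y), P = .some x y h ∧ x ∉ A

/-- Integral affine points with nonsingular reduction. -/
def FA_S05_NS (A : ValuationSubring K) {W : WeierstrassCurve.Affine K} (P : W.Point) : Prop :=
  ∃ (x y : K) (h : W.Nonsingular x y), P = .some x y h ∧ x ∈ A ∧ y ∈ A ∧
    (W.polynomialX.evalEval x y ∉ A.nonunits ∨ W.polynomialY.evalEval x y ∉ A.nonunits)

lemma FA_S05_E1_zero (A : ValuationSubring K) {W : WeierstrassCurve.Affine K} :
    FA_S05_E1 A (0 : W.Point) := Or.inl rfl

lemma FA_S05_E1_some (A : ValuationSubring K) {W : WeierstrassCurve.Affine K} {x y : K}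
    (h : W.Nonsingular x y) : FA_S05_E1 A (Affine.Point.some x y h) ↔ x ∉ A := by
  constructor
  · rintro (h0 | ⟨x', y', h', he, hx⟩)
    · exact absurd h0 (Affine.Point.some_ne_zero h)
    · obtain ⟨rfl, rfl⟩ := Affine.Point.some.inj he
      exact hx
  · intro hx
    exact Or.inr ⟨x, y, h, rfl, hx⟩

lemma FA_S05_NS_some (A : ValuationSubring K) {W : WeierstrassCurve.Affine K} {x y : K}
    (h : W.Nonsingular x y) : FA_S05_NS A (Affine.Point.some x y h) ↔ x ∈ A ∧ y ∈ A ∧
    (W.polynomialX.evalEval x y ∉ A.nonunits ∨ W.polynomialY.evalEval x y ∉ A.nonunits) := by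
  constructor
  · rintro ⟨x', y', h', he, hx⟩
    obtain ⟨rfl, rfl⟩ := Affine.Point.some.inj he
    exact hx
  · intro hx
    exact ⟨x, y, h, rfl, hx⟩

end Fermat.Agent.S05
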