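import Fermat.Agent.S05.KLAdd

/-!
# S05 library L: the kernel of reduction, `ValuationSubring` form (helper9)

* `FA_S05_KL` : the kernel of reduction `E₁` has no `n`-torsion for `n` a unit of `A`.
* `FA_S05_E1_add`, `FA_S05_E1_neg`, `FA_S05_E1_sub` : `E₁` is a subgroup.
-/

namespace Fermat.Agent.S05

open WeierstrassCurve

variable {K : Type*} [Field K]

lemma FA_S05_VInt_of_Integral {A : ValuationSubring K} {W : WeierstrassCurve.Affine K}
    (hW : FA_S05_Integral A W) : FA_S05_VInt A.valuation W := by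
  obtain ⟨h1, h2, h3, h4, h6⟩ := hW
  exact ⟨(A.valuation_le_one_iff _).mpr h1, (A.valuation_le_one_iff _).mpr h2,
    (A.valuation_le_one_iff _).mpr h3, (A.valuation_le_one_iff _).mpr h4,
    (A.valuation_le_one_iff _).mpr h6⟩

lemma FA_S05_not_mem_iff (A : ValuationSubring K) (x : K) : x ∉ A ↔ 1 < A.valuation x := by
  rw [← A.valuation_le_one_iff, not_le]

lemma FA_S05_E1_iff_E1v (A : ValuationSubring K) {W : WeierstrassCurve.Affine K}
    (P : W.Point) : FA_S05_E1 A P ↔ FA_S05_E1v A.valuation P := by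
  rcases P with _ | ⟨x, y, h⟩
  · exact ⟨fun _ => trivial, fun _ => Or.inl rfl⟩
  · rw [FA_S05_E1_some, FA_S05_E1v_some, FA_S05_not_mem_iff]

/-- **KL**: the kernel of reduction has no `n`-torsion for `n` a unit of `A`. -/
theorem FA_S05_KL [DecidableEq K] (A : ValuationSubring K) (W : WeierstrassCurve.Affine K)
    (hW : FA_S05_Integral A W) (n : ℕ) (hn : (n : K) ∉ A.nonunits)
    (P : W.Point) (hP : FA_S05_E1 A P) (hnP : n • P = 0) : P = 0 := by
  have hn1 : A.valuation (n : K) = 1 := by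
    have h1 : A.valuation (n : K) ≤ 1 := (A.valuation_le_one_iff _).mpr (natCast_mem A n)
    have h2 : ¬ A.valuation (n : K) < 1 := fun h => hn (A.mem_nonunits_iff.mpr h)
    exact le_antisymm h1 (not_lt.mp h2)
  exact FA_S05_KLv (FA_S05_VInt_of_Integral hW) n hn1 ((FA_S05_E1_iff_E1v A P).mp hP) hnP

/-- The kernel of reduction is closed under addition. -/
theorem FA_S05_E1_add [DecidableEq K] (A : ValuationSubring K) {W : WeierstrassCurve.Affine K}
    (hW : FA_S05_Integral A W) {P Q : W.Point} (hP : FA_S05_E1 A P) (hQ : FA_S05_E1 A Q) :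
    FA_S05_E1 A (P + Q) := by
  rw [FA_S05_E1_iff_E1v] at hP hQ ⊢
  exact FA_S05_E1v_add (FA_S05_VInt_of_Integral hW) hP hQ

/-- The kernel of reduction is closed under negation. -/
theorem FA_S05_E1_neg (A : ValuationSubring K) {W : WeierstrassCurve.Affine K}
    {P : W.Point} (hP : FA_S05_E1 A P) : FA_S05_E1 A (-P) := by
  rw [FA_S05_E1_iff_E1v] at hP ⊢
  exact FA_S05_E1v_neg hP

/-- The kernel of reduction is closed under subtraction. -/
theorem FA_S05_E1_sub [DecidableEq K] (A : ValuationSubring K) {W : WeierstrassCurve.Affine K}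
    (hW : FA_S05_Integral A W) {P Q : W.Point} (hP : FA_S05_E1 A P) (hQ : FA_S05_E1 A Q) :
    FA_S05_E1 A (P - Q) := by
  rw [sub_eq_add_neg]
  exact FA_S05_E1_add A hW hP (FA_S05_E1_neg A hQ)

/-- A torsion point (of order a unit of `A`) whose difference with `Q` is in the kernel of
reduction... convenience form: if `P - Q ∈ E₁` and `n • (P - Q) = 0` then `P = Q`. -/
theorem FA_S05_eq_of_sub_E1 [DecidableEq K] (A : ValuationSubring K)
    (W : WeierstrassCurve.Affine K) (hW : FA_S05_Integral A W) (n : ℕ)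
    (hn : (n : K) ∉ A.nonunits) (P Q : W.Point) (hPQ : FA_S05_E1 A (P - Q))
    (hnP : n • P = 0) (hnQ : n • Q = 0) : P = Q := by
  have h : n • (P - Q) = 0 := by rw [smul_sub, hnP, hnQ, sub_zero]
  exact sub_eq_zero.mp (FA_S05_KL A W hW n hn (P - Q) hPQ h)

end Fermat.Agent.S05
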