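import Fermat.Agent.S05.KLSlope

/-!
# S05 library L: addition on the kernel of reduction (helper9)

Main estimate: for `P₁, P₂` in the kernel of reduction with `v (z Pᵢ) ≤ ρ < 1`, the sum
`P₁ + P₂` is in the kernel of reduction and `v (z (P₁ + P₂) - z P₁ - z P₂) ≤ ρ ^ 2`.
-/

namespace Fermat.Agent.S05

open WeierstrassCurve

variable {K : Type*} [Field K] {Γ₀ : Type*} [LinearOrderedCommGroupWithZero Γ₀]
  {v : Valuation K Γ₀}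

/-- Main estimate for the third intersection point (coordinates). -/
lemma FA_S05_negAdd_est [DecidableEq K] {W : WeierstrassCurve.Affine K} (hW : FA_S05_VInt v W)
    {x₁ y₁ x₂ y₂ : K} {ρ : Γ₀}
    (h₁ : W.Equation x₁ y₁) (h₂ : W.Equation x₂ y₂)
    (hxy : ¬(x₁ = x₂ ∧ y₁ = W.negY x₂ y₂))
    (hx₁ : 1 < v x₁) (hx₂ : 1 < v x₂) (hρ : ρ < 1)
    (hz₁ : v (x₁ / y₁) ≤ ρ) (hz₂ : v (x₂ / y₂) ≤ ρ) :
    1 < v (W.addX x₁ x₂ (W.slope x₁ x₂ y₁ y₂)) ∧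
    v (x₁ / y₁ + x₂ / y₂ + W.addX x₁ x₂ (W.slope x₁ x₂ y₁ y₂)
        / W.negAddY x₁ x₂ y₁ (W.slope x₁ x₂ y₁ y₂)) ≤ ρ ^ 2 ∧
    v (W.addX x₁ x₂ (W.slope x₁ x₂ y₁ y₂)
        / W.negAddY x₁ x₂ y₁ (W.slope x₁ x₂ y₁ y₂)) ≤ ρ := by
  obtain ⟨hy₁, -, hz₁', hw₁', -, hval₁, -⟩ := FA_S05_E1_coords hW h₁ hx₁
  obtain ⟨hy₂, -, hz₂', hw₂', -, hval₂, -⟩ := FA_S05_E1_coords hW h₂ hx₂
  have hw₁ : v (1 / y₁) ≤ ρ ^ 3 := by rw [hval₁]; exact pow_le_pow_left' hz₁ 3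
  have hw₂ : v (1 / y₂) ≤ ρ ^ 3 := by rw [hval₂]; exact pow_le_pow_left' hz₂ 3
  have hU := FA_S05_U_val hW hz₁' hw₁' hw₂'
  have hUne : FA_S05_U W (x₁ / y₁) (1 / y₁) (1 / y₂) ≠ 0 := by
    intro h0
    rw [h0, map_zero] at hU
    exact zero_ne_one hU
  obtain ⟨hc, hUV⟩ := FA_S05_slope_UV h₁ h₂ hxy hy₁ hy₂ hUne
  obtain ⟨hl, hn⟩ := FA_S05_slope_val hW hρ hy₁ hz₁ hz₂ hw₁ hw₂ hc hUV
  obtain ⟨e₂, e₃⟩ := FA_S05_vieta h₁ h₂ hxy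
  have hline := FA_S05_line h₁ h₂ hxy
  set ℓ := W.slope x₁ x₂ y₁ y₂ with hℓ
  set c := y₁ - ℓ * x₁ with hcdef
  have hh₁ : y₁ = ℓ * x₁ + c := by rw [hcdef]; ring
  have hh₂ : y₂ = ℓ * x₂ + c := by rw [hcdef]; linear_combination hline
  have hh₃ : W.negAddY x₁ x₂ y₁ ℓ = ℓ * W.addX x₁ x₂ ℓ + c := by
    rw [hcdef, Affine.negAddY]; ring
  have e₁' : x₁ + x₂ + W.addX x₁ x₂ ℓ = ℓ ^ 2 + W.a₁ * ℓ - W.a₂ := by
    rw [Affine.addX]; ring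
  have e₂' : x₁ * x₂ + x₁ * W.addX x₁ x₂ ℓ + x₂ * W.addX x₁ x₂ ℓ
      = W.a₄ - 2 * ℓ * c - W.a₁ * c - W.a₃ * ℓ := by
    rw [e₂, hcdef]; ring
  have e₃' : x₁ * x₂ * W.addX x₁ x₂ ℓ = c ^ 2 + W.a₃ * c - W.a₆ := by
    rw [hcdef]; linear_combination -e₃
  obtain ⟨hy₃, hS, hz₃, hw₃⟩ :=
    FA_S05_third_val hW hh₁ hh₂ hh₃ e₁' e₂' e₃' hρ hc hl hn hy₁ hy₂ hz₁ hz₂
  have heq := Affine.equation_negAdd h₁ h₂ hxy
  have hρ3lt : ρ ^ 3 < 1 := FA_S05_lt_one_pow hρ (by norm_num)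
  exact ⟨FA_S05_E1_of_small hW heq hy₃ (lt_of_le_of_lt hz₃ hρ) (lt_of_le_of_lt hw₃ hρ3lt),
    hS, hz₃⟩

/-- Main estimate for the sum (coordinates). -/
lemma FA_S05_add_est [DecidableEq K] {W : WeierstrassCurve.Affine K} (hW : FA_S05_VInt v W)
    {x₁ y₁ x₂ y₂ : K} {ρ : Γ₀}
    (h₁ : W.Equation x₁ y₁) (h₂ : W.Equation x₂ y₂)
    (hxy : ¬(x₁ = x₂ ∧ y₁ = W.negY x₂ y₂))
    (hx₁ : 1 < v x₁) (hx₂ : 1 < v x₂) (hρ : ρ < 1)
    (hz₁ : v (x₁ / y₁) ≤ ρ) (hz₂ : v (x₂ / y₂) ≤ ρ) :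
    1 < v (W.addX x₁ x₂ (W.slope x₁ x₂ y₁ y₂)) ∧
    v (W.addX x₁ x₂ (W.slope x₁ x₂ y₁ y₂) / W.addY x₁ x₂ y₁ (W.slope x₁ x₂ y₁ y₂)
        - x₁ / y₁ - x₂ / y₂) ≤ ρ ^ 2 := by
  obtain ⟨hx₃, hS, hz₃⟩ := FA_S05_negAdd_est hW h₁ h₂ hxy hx₁ hx₂ hρ hz₁ hz₂
  refine ⟨hx₃, ?_⟩
  have heq := Affine.equation_negAdd h₁ h₂ hxy
  have hneg := FA_S05_neg_z hW heq hx₃
  have hneg' : v (W.addX x₁ x₂ (W.slope x₁ x₂ y₁ y₂) / W.addY x₁ x₂ y₁ (W.slope x₁ x₂ y₁ y₂)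
      + W.addX x₁ x₂ (W.slope x₁ x₂ y₁ y₂) / W.negAddY x₁ x₂ y₁ (W.slope x₁ x₂ y₁ y₂))
      ≤ ρ ^ 2 := by
    refine le_trans hneg ?_
    exact pow_le_pow_left' hz₃ 2
  have hid : W.addX x₁ x₂ (W.slope x₁ x₂ y₁ y₂) / W.addY x₁ x₂ y₁ (W.slope x₁ x₂ y₁ y₂)
        - x₁ / y₁ - x₂ / y₂
      = (W.addX x₁ x₂ (W.slope x₁ x₂ y₁ y₂) / W.addY x₁ x₂ y₁ (W.slope x₁ x₂ y₁ y₂)
      + W.addX x₁ x₂ (W.slope x₁ x₂ y₁ y₂) / W.negAddY x₁ x₂ y₁ (W.slope x₁ x₂ y₁ y₂))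
      - (x₁ / y₁ + x₂ / y₂ + W.addX x₁ x₂ (W.slope x₁ x₂ y₁ y₂)
        / W.negAddY x₁ x₂ y₁ (W.slope x₁ x₂ y₁ y₂)) := by
    ring
  rw [hid]
  exact v.map_sub_le hneg' hS

/-- The kernel of reduction, in terms of a valuation. -/
def FA_S05_E1v (v : Valuation K Γ₀) {W : WeierstrassCurve.Affine K} : W.Point → Prop
  | .zero => True
  | .some x _ _ => 1 < v x

/-- The coordinate `z = x / y` of a point (`0` at the origin). -/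
def FA_S05_zc {W : WeierstrassCurve.Affine K} : W.Point → K
  | .zero => 0
  | .some x y _ => x / y

@[simp] lemma FA_S05_zc_zero {W : WeierstrassCurve.Affine K} :
    FA_S05_zc (0 : W.Point) = 0 := rfl

@[simp] lemma FA_S05_zc_some {W : WeierstrassCurve.Affine K} {x y : K}
    (h : W.Nonsingular x y) : FA_S05_zc (Affine.Point.some x y h) = x / y := rfl

@[simp] lemma FA_S05_E1v_zero {W : WeierstrassCurve.Affine K} :
    FA_S05_E1v v (0 : W.Point) := trivial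

@[simp] lemma FA_S05_E1v_some {W : WeierstrassCurve.Affine K} {x y : K}
    (h : W.Nonsingular x y) : FA_S05_E1v v (Affine.Point.some x y h) ↔ 1 < v x := Iff.rfl

lemma FA_S05_E1v_neg {W : WeierstrassCurve.Affine K} {P : W.Point}
    (hP : FA_S05_E1v v P) : FA_S05_E1v v (-P) := by
  rcases P with _ | ⟨x, y, h⟩
  · exact trivial
  · exact hP

lemma FA_S05_zc_lt_one {W : WeierstrassCurve.Affine K} (hW : FA_S05_VInt v W) {P : W.Point}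
    (hP : FA_S05_E1v v P) : v (FA_S05_zc P) < 1 := by
  rcases P with _ | ⟨x, y, h⟩
  · change v 0 < 1
    rw [map_zero]
    exact zero_lt_one
  · exact (FA_S05_E1_coords hW h.1 hP).2.2.1

lemma FA_S05_zc_ne_zero {W : WeierstrassCurve.Affine K} (hW : FA_S05_VInt v W) {P : W.Point}
    (hP : FA_S05_E1v v P) (hP0 : P ≠ 0) : v (FA_S05_zc P) ≠ 0 := by
  rcases P with _ | ⟨x, y, h⟩
  · exact absurd rfl hP0
  · exact (FA_S05_E1_coords hW h.1 hP).2.2.2.2.1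

/-- **Addition on the kernel of reduction.** -/
theorem FA_S05_E1v_add_est [DecidableEq K] {W : WeierstrassCurve.Affine K}
    (hW : FA_S05_VInt v W) {P Q : W.Point} {ρ : Γ₀}
    (hP : FA_S05_E1v v P) (hQ : FA_S05_E1v v Q) (hρ : ρ < 1)
    (hzP : v (FA_S05_zc P) ≤ ρ) (hzQ : v (FA_S05_zc Q) ≤ ρ) :
    FA_S05_E1v v (P + Q) ∧ v (FA_S05_zc (P + Q) - FA_S05_zc P - FA_S05_zc Q) ≤ ρ ^ 2 := by
  rcases P with _ | ⟨x₁, y₁, h₁⟩
  · change FA_S05_E1v v (0 + Q) ∧ v (FA_S05_zc (0 + Q) - FA_S05_zc 0 - FA_S05_zc Q) ≤ ρ ^ 2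
    rw [zero_add]
    refine ⟨hQ, ?_⟩
    simp
  rcases Q with _ | ⟨x₂, y₂, h₂⟩
  · change FA_S05_E1v v (Affine.Point.some x₁ y₁ h₁ + 0) ∧
      v (FA_S05_zc (Affine.Point.some x₁ y₁ h₁ + 0) - FA_S05_zc (Affine.Point.some x₁ y₁ h₁)
        - FA_S05_zc 0) ≤ ρ ^ 2
    rw [add_zero]
    refine ⟨hP, ?_⟩
    simp
  by_cases hxy : x₁ = x₂ ∧ y₁ = W.negY x₂ y₂
  · rw [Affine.Point.add_of_Y_eq hxy.1 hxy.2]
    refine ⟨trivial, ?_⟩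
    obtain ⟨rfl, rfl⟩ := hxy
    have hneg := FA_S05_neg_z hW h₂.1 hQ
    simp only [FA_S05_zc_zero, FA_S05_zc_some, zero_sub]
    have : -(x₁ / W.negY x₁ y₂) - x₁ / y₂ = -(x₁ / W.negY x₁ y₂ + x₁ / y₂) := by ring
    rw [this, v.map_neg]
    exact le_trans hneg (pow_le_pow_left' hzQ 2)
  · rw [Affine.Point.add_some hxy]
    exact FA_S05_add_est hW h₁.1 h₂.1 hxy hP hQ hρ hzP hzQ

/-- The kernel of reduction is closed under addition. -/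
theorem FA_S05_E1v_add [DecidableEq K] {W : WeierstrassCurve.Affine K}
    (hW : FA_S05_VInt v W) {P Q : W.Point}
    (hP : FA_S05_E1v v P) (hQ : FA_S05_E1v v Q) : FA_S05_E1v v (P + Q) := by
  have h1 := FA_S05_zc_lt_one hW hP
  have h2 := FA_S05_zc_lt_one hW hQ
  exact (FA_S05_E1v_add_est hW hP hQ (max_lt h1 h2) (le_max_left _ _) (le_max_right _ _)).1

/-- Multiples of a point of the kernel of reduction. -/
theorem FA_S05_E1v_nsmul_est [DecidableEq K] {W : WeierstrassCurve.Affine K}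
    (hW : FA_S05_VInt v W) {P : W.Point} (hP : FA_S05_E1v v P) (k : ℕ) :
    FA_S05_E1v v (k • P) ∧
      v (FA_S05_zc (k • P) - (k : K) * FA_S05_zc P) ≤ v (FA_S05_zc P) ^ 2 := by
  have hρ := FA_S05_zc_lt_one hW hP
  have hρ2 : v (FA_S05_zc P) ^ 2 ≤ v (FA_S05_zc P) := by
    calc v (FA_S05_zc P) ^ 2 ≤ v (FA_S05_zc P) ^ 1 :=
          FA_S05_pow_le_of_le_one hρ.le (by norm_num)
      _ = v (FA_S05_zc P) := pow_one _
  induction k with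
  | zero =>
    rw [zero_smul]
    refine ⟨trivial, ?_⟩
    simp
  | succ k ih =>
    obtain ⟨ih1, ih2⟩ := ih
    have hzk : v (FA_S05_zc (k • P)) ≤ v (FA_S05_zc P) := by
      have : FA_S05_zc (k • P) = (FA_S05_zc (k • P) - (k : K) * FA_S05_zc P)
          + (k : K) * FA_S05_zc P := by ring
      rw [this]
      exact v.map_add_le (le_trans ih2 hρ2) (FA_S05_v_mul_left v (FA_S05_v_natCast v k) le_rfl)
    rw [succ_nsmul]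
    obtain ⟨h1, h2⟩ := FA_S05_E1v_add_est hW ih1 hP hρ hzk le_rfl
    refine ⟨h1, ?_⟩
    have : FA_S05_zc (k • P + P) - ((k + 1 : ℕ) : K) * FA_S05_zc P
        = (FA_S05_zc (k • P + P) - FA_S05_zc (k • P) - FA_S05_zc P)
          + (FA_S05_zc (k • P) - (k : K) * FA_S05_zc P) := by
      push_cast
      ring
    rw [this]
    exact v.map_add_le h2 ih2

/-- **The kernel of reduction has no `n`-torsion for `n` a unit.** -/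
theorem FA_S05_KLv [DecidableEq K] {W : WeierstrassCurve.Affine K}
    (hW : FA_S05_VInt v W) (n : ℕ) (hn : v (n : K) = 1) {P : W.Point}
    (hP : FA_S05_E1v v P) (hnP : n • P = 0) : P = 0 := by
  by_contra hP0
  have hne := FA_S05_zc_ne_zero hW hP hP0
  have hlt := FA_S05_zc_lt_one hW hP
  have h := (FA_S05_E1v_nsmul_est hW hP n).2
  rw [hnP, FA_S05_zc_zero, zero_sub, v.map_neg, map_mul, hn, one_mul] at h
  have hpos : (0 : Γ₀) < v (FA_S05_zc P) := zero_lt_iff.mpr hne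
  have : v (FA_S05_zc P) ^ 2 < v (FA_S05_zc P) := by
    calc v (FA_S05_zc P) ^ 2 = v (FA_S05_zc P) * v (FA_S05_zc P) := pow_two _
      _ < v (FA_S05_zc P) * 1 := mul_lt_mul_of_pos_left hlt hpos
      _ = v (FA_S05_zc P) := mul_one _
  exact absurd h (not_le.mpr this)

end Fermat.Agent.S05
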