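import Fermat.Agent.S05.KLThird

/-!
# S05 library L: the slope of the chord/tangent through two points of the kernel of reduction
(helper9)
-/

namespace Fermat.Agent.S05

open WeierstrassCurve

variable {K : Type*} [Field K] {Γ₀ : Type*} [LinearOrderedCommGroupWithZero Γ₀]
  {v : Valuation K Γ₀}

/-- Denominator of the slope in the `(z, w)` chart (a unit). -/
def FA_S05_U (W : WeierstrassCurve.Affine K) (z₁ w₁ w₂ : K) : K :=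
  1 + (W.a₁ * z₁ + W.a₃ * (w₁ + w₂) - W.a₂ * z₁ ^ 2 - W.a₄ * z₁ * (w₁ + w₂)
    - W.a₆ * (w₁ ^ 2 + w₁ * w₂ + w₂ ^ 2))

/-- Numerator of the slope in the `(z, w)` chart. -/
def FA_S05_V (W : WeierstrassCurve.Affine K) (z₁ z₂ w₂ : K) : K :=
  z₁ ^ 2 + z₁ * z₂ + z₂ ^ 2 - W.a₁ * w₂ + W.a₂ * (z₁ + z₂) * w₂ + W.a₄ * w₂ ^ 2

lemma FA_S05_UV_identity {W : WeierstrassCurve.Affine K} {z₁ w₁ z₂ w₂ : K}
    (h₁ : FA_S05_ZW W z₁ w₁) (h₂ : FA_S05_ZW W z₂ w₂) :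
    (w₁ - w₂) * FA_S05_U W z₁ w₁ w₂ = (z₁ - z₂) * FA_S05_V W z₁ z₂ w₂ := by
  unfold FA_S05_ZW at h₁ h₂
  unfold FA_S05_U FA_S05_V
  linear_combination h₁ - h₂

lemma FA_S05_U_val {W : WeierstrassCurve.Affine K} (hW : FA_S05_VInt v W) {z₁ w₁ w₂ : K}
    (hz₁ : v z₁ < 1) (hw₁ : v w₁ < 1) (hw₂ : v w₂ < 1) : v (FA_S05_U W z₁ w₁ w₂) = 1 := by
  obtain ⟨h1, h2, h3, h4, h6⟩ := hW
  unfold FA_S05_U
  apply v.map_one_add_of_lt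
  have hww : v (w₁ + w₂) < 1 := v.map_add_lt hw₁ hw₂
  refine v.map_sub_lt (v.map_sub_lt (v.map_sub_lt (v.map_add_lt ?_ ?_) ?_) ?_) ?_
  · exact lt_of_le_of_lt (FA_S05_v_mul_left v h1 le_rfl) hz₁
  · exact lt_of_le_of_lt (FA_S05_v_mul_left v h3 le_rfl) hww
  · refine lt_of_le_of_lt (FA_S05_v_mul_left v h2 le_rfl) ?_
    rw [map_pow]; exact FA_S05_lt_one_pow hz₁ two_ne_zero
  · rw [mul_assoc]
    exact lt_of_le_of_lt (FA_S05_v_mul_left v h4 (FA_S05_v_mul_right v le_rfl hww.le)) hz₁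
  · refine lt_of_le_of_lt (FA_S05_v_mul_left v h6 le_rfl) ?_
    refine v.map_add_lt (v.map_add_lt ?_ ?_) ?_
    · rw [map_pow]; exact FA_S05_lt_one_pow hw₁ two_ne_zero
    · exact lt_of_le_of_lt (FA_S05_v_mul_right v le_rfl hw₂.le) hw₁
    · rw [map_pow]; exact FA_S05_lt_one_pow hw₂ two_ne_zero

lemma FA_S05_V_val {W : WeierstrassCurve.Affine K} (hW : FA_S05_VInt v W) {z₁ z₂ w₂ : K}
    {ρ : Γ₀} (hρ : ρ < 1) (hz₁ : v z₁ ≤ ρ) (hz₂ : v z₂ ≤ ρ) (hw₂ : v w₂ ≤ ρ ^ 3) :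
    v (FA_S05_V W z₁ z₂ w₂) ≤ ρ ^ 2 := by
  obtain ⟨h1, h2, h3, h4, h6⟩ := hW
  unfold FA_S05_V
  have hρ3 : ρ ^ 3 ≤ ρ ^ 2 := FA_S05_pow_le_of_le_one hρ.le (by norm_num)
  have hw : v w₂ ≤ ρ ^ 2 := le_trans hw₂ hρ3
  have hw1 : v w₂ ≤ 1 := le_trans hw (FA_S05_lt_one_pow hρ two_ne_zero).le
  have hz1 : v z₁ ≤ 1 := le_trans hz₁ hρ.le
  have hz2 : v z₂ ≤ 1 := le_trans hz₂ hρ.le
  refine v.map_add_le (v.map_add_le (v.map_sub_le (v.map_add_le (v.map_add_le ?_ ?_) ?_) ?_) ?_) ?_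
  · exact FA_S05_v_pow v hz₁ 2
  · rw [pow_two]; exact FA_S05_v_mul v hz₁ hz₂
  · exact FA_S05_v_pow v hz₂ 2
  · exact FA_S05_v_mul_left v h1 hw
  · rw [mul_assoc]
    exact FA_S05_v_mul_left v h2 (FA_S05_v_mul_left v (v.map_add_le hz1 hz2) hw)
  · refine FA_S05_v_mul_left v h4 ?_
    rw [pow_two]
    exact FA_S05_v_mul_left v hw1 hw

/-- From `ℓ U + c V = 0` and `c ≠ 0` to the valuation estimates of `ℓ / c` and `1 / c`. -/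
lemma FA_S05_slope_val {W : WeierstrassCurve.Affine K} (hW : FA_S05_VInt v W)
    {x₁ y₁ x₂ y₂ ℓ : K} {ρ : Γ₀} (hρ : ρ < 1)
    (hy₁ : y₁ ≠ 0)
    (hz₁ : v (x₁ / y₁) ≤ ρ) (hz₂ : v (x₂ / y₂) ≤ ρ)
    (hw₁ : v (1 / y₁) ≤ ρ ^ 3) (hw₂ : v (1 / y₂) ≤ ρ ^ 3)
    (hc : y₁ - ℓ * x₁ ≠ 0)
    (hUV : ℓ * FA_S05_U W (x₁ / y₁) (1 / y₁) (1 / y₂)
      + (y₁ - ℓ * x₁) * FA_S05_V W (x₁ / y₁) (x₂ / y₂) (1 / y₂) = 0) :
    v (ℓ / (y₁ - ℓ * x₁)) ≤ ρ ^ 2 ∧ v (1 / (y₁ - ℓ * x₁)) ≤ ρ ^ 3 := by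
  have hρ3lt : ρ ^ 3 < 1 := FA_S05_lt_one_pow hρ (by norm_num)
  have hU := FA_S05_U_val hW (z₁ := x₁ / y₁) (w₁ := 1 / y₁) (w₂ := 1 / y₂)
    (lt_of_le_of_lt hz₁ hρ) (lt_of_le_of_lt hw₁ hρ3lt) (lt_of_le_of_lt hw₂ hρ3lt)
  have hV := FA_S05_V_val hW hρ hz₁ hz₂ hw₂
  have hUne : FA_S05_U W (x₁ / y₁) (1 / y₁) (1 / y₂) ≠ 0 := by
    intro h0
    rw [h0, map_zero] at hU
    exact zero_ne_one hU
  have hlc : ℓ / (y₁ - ℓ * x₁) = -(FA_S05_V W (x₁ / y₁) (x₂ / y₂) (1 / y₂)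
      / FA_S05_U W (x₁ / y₁) (1 / y₁) (1 / y₂)) := by
    rw [div_eq_iff hc, neg_mul, div_mul_eq_mul_div, eq_neg_iff_add_eq_zero, eq_comm,
      ← sub_eq_zero]
    field_simp
    linear_combination -hUV
  have h1 : v (ℓ / (y₁ - ℓ * x₁)) ≤ ρ ^ 2 := by
    rw [hlc, v.map_neg, map_div₀, hU, div_one]
    exact hV
  refine ⟨h1, ?_⟩
  have h1c : 1 / (y₁ - ℓ * x₁) = 1 / y₁ + (ℓ / (y₁ - ℓ * x₁)) * (x₁ / y₁) := by
    field_simp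
    ring
  rw [h1c]
  refine v.map_add_le hw₁ ?_
  calc v (ℓ / (y₁ - ℓ * x₁) * (x₁ / y₁)) ≤ ρ ^ 2 * ρ := FA_S05_v_mul v h1 hz₁
    _ = ρ ^ 3 := (pow_succ ρ 2).symm


/-- Chord case: the line through two distinct points of the kernel of reduction. -/
lemma FA_S05_slope_UV_chord {W : WeierstrassCurve.Affine K} {x₁ y₁ x₂ y₂ : K}
    (h₁ : W.Equation x₁ y₁) (h₂ : W.Equation x₂ y₂) (hx : x₁ ≠ x₂)
    (hy₁ : y₁ ≠ 0) (hy₂ : y₂ ≠ 0)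
    (hU : FA_S05_U W (x₁ / y₁) (1 / y₁) (1 / y₂) ≠ 0) :
    y₁ - (y₁ - y₂) / (x₁ - x₂) * x₁ ≠ 0 ∧
    (y₁ - y₂) / (x₁ - x₂) * FA_S05_U W (x₁ / y₁) (1 / y₁) (1 / y₂)
      + (y₁ - (y₁ - y₂) / (x₁ - x₂) * x₁) * FA_S05_V W (x₁ / y₁) (x₂ / y₂) (1 / y₂) = 0 := by
  have I3 := FA_S05_UV_identity (FA_S05_ZW_of_equation h₁ hy₁) (FA_S05_ZW_of_equation h₂ hy₂)
  have hxx : x₁ - x₂ ≠ 0 := sub_ne_zero.mpr hx
  have hz : x₁ / y₁ - x₂ / y₂ ≠ 0 := by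
    intro h0
    rw [h0, zero_mul] at I3
    have hw : 1 / y₁ - 1 / y₂ = 0 := by
      rcases mul_eq_zero.mp I3 with h | h
      · exact h
      · exact absurd h hU
    have hyy : y₁ = y₂ := by
      have hw' : 1 / y₁ = 1 / y₂ := sub_eq_zero.mp hw
      rw [one_div, one_div] at hw'
      exact inv_injective hw'
    apply hx
    have h0' : x₁ / y₁ = x₂ / y₂ := sub_eq_zero.mp h0
    rw [hyy] at h0'
    exact (div_left_inj' hy₂).mp h0'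
  have hc : (y₁ - (y₁ - y₂) / (x₁ - x₂) * x₁) * (x₁ - x₂) = y₁ * y₂ * (x₁ / y₁ - x₂ / y₂) := by
    field_simp
    ring
  constructor
  · intro h0
    rw [h0, zero_mul] at hc
    exact (mul_ne_zero (mul_ne_zero hy₁ hy₂) hz) hc.symm
  · have hl : (y₁ - y₂) / (x₁ - x₂) * (x₁ - x₂) = -(y₁ * y₂ * (1 / y₁ - 1 / y₂)) := by
      field_simp
      ring
    have key : ((y₁ - y₂) / (x₁ - x₂) * FA_S05_U W (x₁ / y₁) (1 / y₁) (1 / y₂)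
      + (y₁ - (y₁ - y₂) / (x₁ - x₂) * x₁) * FA_S05_V W (x₁ / y₁) (x₂ / y₂) (1 / y₂))
        * (x₁ - x₂) = 0 := by
      linear_combination FA_S05_U W (x₁ / y₁) (1 / y₁) (1 / y₂) * hl
        + FA_S05_V W (x₁ / y₁) (x₂ / y₂) (1 / y₂) * hc - y₁ * y₂ * I3
    rcases mul_eq_zero.mp key with h | h
    · exact h
    · exact absurd h hxx

/-- Tangent case. -/
lemma FA_S05_slope_UV_tangent {W : WeierstrassCurve.Affine K} {x y : K}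
    (h : W.Equation x y) (hy : y ≠ W.negY x y) (hy0 : y ≠ 0)
    (hU : FA_S05_U W (x / y) (1 / y) (1 / y) ≠ 0) :
    y - (3 * x ^ 2 + 2 * W.a₂ * x + W.a₄ - W.a₁ * y) / (y - W.negY x y) * x ≠ 0 ∧
    (3 * x ^ 2 + 2 * W.a₂ * x + W.a₄ - W.a₁ * y) / (y - W.negY x y)
        * FA_S05_U W (x / y) (1 / y) (1 / y)
      + (y - (3 * x ^ 2 + 2 * W.a₂ * x + W.a₄ - W.a₁ * y) / (y - W.negY x y) * x)
        * FA_S05_V W (x / y) (x / y) (1 / y) = 0 := by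
  have hM : y - W.negY x y ≠ 0 := sub_ne_zero.mpr hy
  rw [Affine.equation_iff] at h
  have hL : 3 * x ^ 2 + 2 * W.a₂ * x + W.a₄ - W.a₁ * y
      = y ^ 2 * FA_S05_V W (x / y) (x / y) (1 / y) := by
    unfold FA_S05_V
    field_simp
    ring
  have hc : (y - (3 * x ^ 2 + 2 * W.a₂ * x + W.a₄ - W.a₁ * y) / (y - W.negY x y) * x)
      * (y - W.negY x y) = -(y ^ 2 * FA_S05_U W (x / y) (1 / y) (1 / y)) := by
    have e1 : (y - (3 * x ^ 2 + 2 * W.a₂ * x + W.a₄ - W.a₁ * y) / (y - W.negY x y) * x)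
      * (y - W.negY x y) = y * (y - W.negY x y)
        - (3 * x ^ 2 + 2 * W.a₂ * x + W.a₄ - W.a₁ * y) * x := by
      field_simp
    rw [e1]
    unfold FA_S05_U
    rw [Affine.negY]
    field_simp
    linear_combination 3 * h
  constructor
  · intro h0
    rw [h0, zero_mul] at hc
    exact (neg_ne_zero.mpr (mul_ne_zero (pow_ne_zero 2 hy0) hU)) hc.symm
  · have hl : (3 * x ^ 2 + 2 * W.a₂ * x + W.a₄ - W.a₁ * y) / (y - W.negY x y)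
        * (y - W.negY x y) = y ^ 2 * FA_S05_V W (x / y) (x / y) (1 / y) := by
      rw [div_mul_cancel₀ _ hM, hL]
    have key : ((3 * x ^ 2 + 2 * W.a₂ * x + W.a₄ - W.a₁ * y) / (y - W.negY x y)
        * FA_S05_U W (x / y) (1 / y) (1 / y)
      + (y - (3 * x ^ 2 + 2 * W.a₂ * x + W.a₄ - W.a₁ * y) / (y - W.negY x y) * x)
        * FA_S05_V W (x / y) (x / y) (1 / y)) * (y - W.negY x y) = 0 := by
      linear_combination FA_S05_U W (x / y) (1 / y) (1 / y) * hl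
        + FA_S05_V W (x / y) (x / y) (1 / y) * hc
    rcases mul_eq_zero.mp key with h | h
    · exact h
    · exact absurd h hM

/-- Both cases: Mathlib's slope satisfies `ℓ U + c V = 0` with `c = y₁ - ℓ x₁ ≠ 0`. -/
lemma FA_S05_slope_UV [DecidableEq K] {W : WeierstrassCurve.Affine K} {x₁ y₁ x₂ y₂ : K}
    (h₁ : W.Equation x₁ y₁) (h₂ : W.Equation x₂ y₂)
    (hxy : ¬(x₁ = x₂ ∧ y₁ = W.negY x₂ y₂))
    (hy₁ : y₁ ≠ 0) (hy₂ : y₂ ≠ 0)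
    (hU : FA_S05_U W (x₁ / y₁) (1 / y₁) (1 / y₂) ≠ 0) :
    y₁ - W.slope x₁ x₂ y₁ y₂ * x₁ ≠ 0 ∧
    W.slope x₁ x₂ y₁ y₂ * FA_S05_U W (x₁ / y₁) (1 / y₁) (1 / y₂)
      + (y₁ - W.slope x₁ x₂ y₁ y₂ * x₁) * FA_S05_V W (x₁ / y₁) (x₂ / y₂) (1 / y₂) = 0 := by
  by_cases hx : x₁ = x₂
  · have hy : y₁ ≠ W.negY x₂ y₂ := fun h => hxy ⟨hx, h⟩
    have hyy := Affine.Y_eq_of_Y_ne h₁ h₂ hx hy
    subst hx
    subst hyy
    rw [Affine.slope_of_Y_ne rfl hy]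
    exact FA_S05_slope_UV_tangent h₁ hy hy₁ hU
  · rw [Affine.slope_of_X_ne hx]
    exact FA_S05_slope_UV_chord h₁ h₂ hx hy₁ hy₂ hU

end Fermat.Agent.S05
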