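import Fermat.Agent.S05.KLVal

/-!
# S05 library L: the third intersection point in the `(z, w)` chart (helper9)
-/

namespace Fermat.Agent.S05

open WeierstrassCurve

variable {K : Type*} [Field K] {Γ₀ : Type*} [LinearOrderedCommGroupWithZero Γ₀]
  {v : Valuation K Γ₀}

/-- Vieta relations for the three intersection points of a line with the curve, extracted
from Mathlib's `addPolynomial_slope`. -/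
lemma FA_S05_vieta [DecidableEq K] {W : WeierstrassCurve.Affine K} {x₁ x₂ y₁ y₂ : K}
    (h₁ : W.Equation x₁ y₁) (h₂ : W.Equation x₂ y₂)
    (hxy : ¬(x₁ = x₂ ∧ y₁ = W.negY x₂ y₂)) :
    x₁ * x₂ + x₁ * W.addX x₁ x₂ (W.slope x₁ x₂ y₁ y₂) + x₂ * W.addX x₁ x₂ (W.slope x₁ x₂ y₁ y₂)
      = 2 * x₁ * (W.slope x₁ x₂ y₁ y₂) ^ 2 + (W.a₁ * x₁ - 2 * y₁ - W.a₃) * W.slope x₁ x₂ y₁ y₂
        + (-W.a₁ * y₁ + W.a₄) ∧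
    -(x₁ * x₂ * W.addX x₁ x₂ (W.slope x₁ x₂ y₁ y₂))
      = -x₁ ^ 2 * (W.slope x₁ x₂ y₁ y₂) ^ 2 + (2 * x₁ * y₁ + W.a₃ * x₁) * W.slope x₁ x₂ y₁ y₂
        - (y₁ ^ 2 + W.a₃ * y₁ - W.a₆) := by
  have h := Affine.addPolynomial_slope h₁ h₂ hxy
  rw [Affine.addPolynomial_eq, neg_inj, Cubic.prod_X_sub_C_eq, Cubic.toPoly_injective] at h
  have hc := congrArg Cubic.c h
  have hd := congrArg Cubic.d h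
  simp only at hc hd
  exact ⟨hc.symm, hd.symm⟩

/-- The line through the two points: `y₂ = ℓ (x₂ - x₁) + y₁`. -/
lemma FA_S05_line [DecidableEq K] {W : WeierstrassCurve.Affine K} {x₁ x₂ y₁ y₂ : K}
    (h₁ : W.Equation x₁ y₁) (h₂ : W.Equation x₂ y₂)
    (hxy : ¬(x₁ = x₂ ∧ y₁ = W.negY x₂ y₂)) :
    y₂ = W.slope x₁ x₂ y₁ y₂ * (x₂ - x₁) + y₁ := by
  by_cases hx : x₁ = x₂
  · have hy : y₁ ≠ W.negY x₂ y₂ := fun h => hxy ⟨hx, h⟩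
    have := Affine.Y_eq_of_Y_ne h₁ h₂ hx hy
    rw [hx, this]
    ring
  · rw [Affine.slope_of_X_ne hx]
    have : x₁ - x₂ ≠ 0 := sub_ne_zero.mpr hx
    field_simp
    ring

/-- Algebraic identities for the third point (products of the `y`-coordinates). -/
lemma FA_S05_third_I1 (W : WeierstrassCurve.Affine K) {x₁ x₂ x₃ y₁ y₂ y₃ ℓ c : K}
    (h₁ : y₁ = ℓ * x₁ + c) (h₂ : y₂ = ℓ * x₂ + c) (h₃ : y₃ = ℓ * x₃ + c)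
    (e₁ : x₁ + x₂ + x₃ = ℓ ^ 2 + W.a₁ * ℓ - W.a₂)
    (e₂ : x₁ * x₂ + x₁ * x₃ + x₂ * x₃ = W.a₄ - 2 * ℓ * c - W.a₁ * c - W.a₃ * ℓ)
    (e₃ : x₁ * x₂ * x₃ = c ^ 2 + W.a₃ * c - W.a₆) :
    y₁ * y₂ * y₃ = c ^ 3 - W.a₂ * ℓ * c ^ 2 + W.a₄ * ℓ ^ 2 * c - W.a₆ * ℓ ^ 3 := by
  subst h₁ h₂ h₃
  linear_combination ℓ ^ 3 * e₃ + ℓ ^ 2 * c * e₂ + ℓ * c ^ 2 * e₁

lemma FA_S05_third_I2 (W : WeierstrassCurve.Affine K) {x₁ x₂ x₃ y₁ y₂ y₃ ℓ c : K}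
    (h₁ : y₁ = ℓ * x₁ + c) (h₂ : y₂ = ℓ * x₂ + c) (h₃ : y₃ = ℓ * x₃ + c)
    (e₁ : x₁ + x₂ + x₃ = ℓ ^ 2 + W.a₁ * ℓ - W.a₂)
    (e₂ : x₁ * x₂ + x₁ * x₃ + x₂ * x₃ = W.a₄ - 2 * ℓ * c - W.a₁ * c - W.a₃ * ℓ)
    (e₃ : x₁ * x₂ * x₃ = c ^ 2 + W.a₃ * c - W.a₆) :
    x₁ * y₂ * y₃ + x₂ * y₁ * y₃ + x₃ * y₁ * y₂ =
      W.a₃ * ℓ ^ 2 * c - 3 * W.a₆ * ℓ ^ 2 + 2 * W.a₄ * ℓ * c - W.a₁ * ℓ * c ^ 2
        - W.a₂ * c ^ 2 := by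
  subst h₁ h₂ h₃
  linear_combination 3 * ℓ ^ 2 * e₃ + 2 * ℓ * c * e₂ + c ^ 2 * e₁


/-- Valuation estimates for the third intersection point. -/
lemma FA_S05_third_val {W : WeierstrassCurve.Affine K} (hW : FA_S05_VInt v W)
    {x₁ x₂ x₃ y₁ y₂ y₃ ℓ c : K} {ρ : Γ₀}
    (h₁ : y₁ = ℓ * x₁ + c) (h₂ : y₂ = ℓ * x₂ + c) (h₃ : y₃ = ℓ * x₃ + c)
    (e₁ : x₁ + x₂ + x₃ = ℓ ^ 2 + W.a₁ * ℓ - W.a₂)
    (e₂ : x₁ * x₂ + x₁ * x₃ + x₂ * x₃ = W.a₄ - 2 * ℓ * c - W.a₁ * c - W.a₃ * ℓ)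
    (e₃ : x₁ * x₂ * x₃ = c ^ 2 + W.a₃ * c - W.a₆)
    (hρ : ρ < 1) (hc : c ≠ 0) (hl : v (ℓ / c) ≤ ρ ^ 2) (hn : v (1 / c) ≤ ρ ^ 3)
    (hy₁ : y₁ ≠ 0) (hy₂ : y₂ ≠ 0) (hz₁ : v (x₁ / y₁) ≤ ρ) (hz₂ : v (x₂ / y₂) ≤ ρ) :
    y₃ ≠ 0 ∧ v (x₁ / y₁ + x₂ / y₂ + x₃ / y₃) ≤ ρ ^ 2 ∧ v (x₃ / y₃) ≤ ρ ∧
      v (1 / y₃) ≤ ρ ^ 3 := by
  have I1 := FA_S05_third_I1 W h₁ h₂ h₃ e₁ e₂ e₃
  have I2 := FA_S05_third_I2 W h₁ h₂ h₃ e₁ e₂ e₃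
  obtain ⟨h1, h2, h3, h4, h6⟩ := hW
  have hρ1 : ρ ≤ 1 := hρ.le
  have hρ2 : ρ ^ 2 ≤ ρ := by
    calc ρ ^ 2 ≤ ρ ^ 1 := FA_S05_pow_le_of_le_one hρ1 (by norm_num)
      _ = ρ := pow_one ρ
  have hρ3 : ρ ^ 3 ≤ ρ ^ 2 := FA_S05_pow_le_of_le_one hρ1 (by norm_num)
  have hρ2lt : ρ ^ 2 < 1 := FA_S05_lt_one_pow hρ two_ne_zero
  set lam := ℓ / c with hlam
  set nu := 1 / c with hnu
  have hl1 : v lam ≤ 1 := le_trans hl hρ2lt.le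
  have hn1 : v nu ≤ 1 := le_trans hn (le_trans hρ3 hρ2lt.le)
  have hl2 : v (lam ^ 2) ≤ ρ ^ 2 := by
    rw [pow_two]
    exact FA_S05_v_mul_left v hl1 hl
  have hl3 : v (lam ^ 3) ≤ ρ ^ 2 := by
    rw [pow_succ]
    exact FA_S05_v_mul_right v hl2 hl1
  have hD : v (1 + (-(W.a₂ * lam) + W.a₄ * lam ^ 2 - W.a₆ * lam ^ 3)) = 1 := by
    apply v.map_one_add_of_lt
    refine lt_of_le_of_lt ?_ hρ2lt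
    refine v.map_sub_le (v.map_add_le ?_ ?_) ?_
    · rw [v.map_neg]
      exact FA_S05_v_mul_left v h2 hl
    · exact FA_S05_v_mul_left v h4 hl2
    · exact FA_S05_v_mul_left v h6 hl3
  have hDne : (1 + (-(W.a₂ * lam) + W.a₄ * lam ^ 2 - W.a₆ * lam ^ 3)) ≠ 0 := by
    intro h0
    rw [h0, map_zero] at hD
    exact zero_ne_one hD
  have hN : v (W.a₃ * lam ^ 2 - 3 * W.a₆ * lam ^ 2 * nu + 2 * W.a₄ * lam * nu - W.a₁ * lam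
      - W.a₂ * nu) ≤ ρ ^ 2 := by
    refine v.map_sub_le (v.map_sub_le (v.map_add_le (v.map_sub_le ?_ ?_) ?_) ?_) ?_
    · exact FA_S05_v_mul_left v h3 hl2
    · refine FA_S05_v_mul_right v ?_ hn1
      rw [mul_assoc]
      exact FA_S05_v_mul_left v (FA_S05_v_three v) (FA_S05_v_mul_left v h6 hl2)
    · refine FA_S05_v_mul_right v ?_ hn1
      rw [mul_assoc]
      exact FA_S05_v_mul_left v (FA_S05_v_two v) (FA_S05_v_mul_left v h4 hl)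
    · exact FA_S05_v_mul_left v h1 hl
    · exact FA_S05_v_mul_left v h2 (le_trans hn hρ3)
  have I1' : y₁ * y₂ * y₃ =
      c ^ 3 * (1 + (-(W.a₂ * lam) + W.a₄ * lam ^ 2 - W.a₆ * lam ^ 3)) := by
    rw [I1, hlam]
    field_simp
    ring
  have I2' : x₁ * y₂ * y₃ + x₂ * y₁ * y₃ + x₃ * y₁ * y₂ =
      c ^ 3 * (W.a₃ * lam ^ 2 - 3 * W.a₆ * lam ^ 2 * nu + 2 * W.a₄ * lam * nu - W.a₁ * lam
      - W.a₂ * nu) := by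
    rw [I2, hlam, hnu]
    field_simp
  have hprod : y₁ * y₂ * y₃ ≠ 0 := by
    rw [I1']
    exact mul_ne_zero (pow_ne_zero 3 hc) hDne
  have hy₃ : y₃ ≠ 0 := fun h0 => hprod (by rw [h0, mul_zero])
  have hsum : x₁ / y₁ + x₂ / y₂ + x₃ / y₃ =
      (W.a₃ * lam ^ 2 - 3 * W.a₆ * lam ^ 2 * nu + 2 * W.a₄ * lam * nu - W.a₁ * lam
      - W.a₂ * nu) / (1 + (-(W.a₂ * lam) + W.a₄ * lam ^ 2 - W.a₆ * lam ^ 3)) := by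
    have : x₁ / y₁ + x₂ / y₂ + x₃ / y₃ =
        (x₁ * y₂ * y₃ + x₂ * y₁ * y₃ + x₃ * y₁ * y₂) / (y₁ * y₂ * y₃) := by
      field_simp
    rw [this, I1', I2', mul_div_mul_left _ _ (pow_ne_zero 3 hc)]
  have hS : v (x₁ / y₁ + x₂ / y₂ + x₃ / y₃) ≤ ρ ^ 2 := by
    rw [hsum, map_div₀, hD, div_one]
    exact hN
  have hz₃ : v (x₃ / y₃) ≤ ρ := by
    have : x₃ / y₃ = (x₁ / y₁ + x₂ / y₂ + x₃ / y₃) - x₁ / y₁ - x₂ / y₂ := by ring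
    rw [this]
    exact v.map_sub_le (v.map_sub_le (le_trans hS hρ2) hz₁) hz₂
  refine ⟨hy₃, hS, hz₃, ?_⟩
  have hw : 1 / y₃ = nu - lam * (x₃ / y₃) := by
    rw [hlam, hnu, h₃]
    have : ℓ * x₃ + c ≠ 0 := h₃ ▸ hy₃
    field_simp
    ring
  rw [hw]
  refine v.map_sub_le hn ?_
  calc v (lam * (x₃ / y₃)) ≤ ρ ^ 2 * ρ := FA_S05_v_mul v hl hz₃
    _ = ρ ^ 3 := (pow_succ ρ 2).symm

end Fermat.Agent.S05
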