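import Fermat.Agent.S05.Interface

/-!
# S05 library L: valuation helpers and the `(z, w)` chart (helper9)

`v` is a valuation on a field `K`, `W` a Weierstrass curve over `K` with `v(aᵢ) ≤ 1`.
For an affine point `(x, y)` with `1 < v x` we use `z = x / y`, `w = 1 / y`.
-/

namespace Fermat.Agent.S05

open WeierstrassCurve

variable {K : Type*} [Field K] {Γ₀ : Type*} [LinearOrderedCommGroupWithZero Γ₀]
  (v : Valuation K Γ₀)

lemma FA_S05_v_mul_left {a b : K} {g : Γ₀} (ha : v a ≤ 1) (hb : v b ≤ g) : v (a * b) ≤ g := by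
  rw [map_mul]
  calc v a * v b ≤ 1 * g := mul_le_mul' ha hb
    _ = g := one_mul g

lemma FA_S05_v_mul_right {a b : K} {g : Γ₀} (ha : v a ≤ g) (hb : v b ≤ 1) : v (a * b) ≤ g := by
  rw [map_mul]
  calc v a * v b ≤ g * 1 := mul_le_mul' ha hb
    _ = g := mul_one g

lemma FA_S05_v_mul {a b : K} {g h : Γ₀} (ha : v a ≤ g) (hb : v b ≤ h) : v (a * b) ≤ g * h := by
  rw [map_mul]
  exact mul_le_mul' ha hb

lemma FA_S05_v_pow {a : K} {g : Γ₀} (ha : v a ≤ g) (n : ℕ) : v (a ^ n) ≤ g ^ n := by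
  rw [map_pow]
  exact pow_le_pow_left' ha n

lemma FA_S05_v_natCast (n : ℕ) : v (n : K) ≤ 1 := by
  induction n with
  | zero => simp
  | succ k ih =>
    rw [Nat.cast_succ]
    exact v.map_add_le ih (le_of_eq v.map_one)

lemma FA_S05_v_two : v (2 : K) ≤ 1 := by
  have := FA_S05_v_natCast v 2
  simpa using this

lemma FA_S05_v_three : v (3 : K) ≤ 1 := by
  have := FA_S05_v_natCast v 3
  simpa using this

/-- The coefficients of `W` are `v`-integral. -/
def FA_S05_VInt (W : WeierstrassCurve.Affine K) : Prop :=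
  v W.a₁ ≤ 1 ∧ v W.a₂ ≤ 1 ∧ v W.a₃ ≤ 1 ∧ v W.a₄ ≤ 1 ∧ v W.a₆ ≤ 1

/-- The curve equation in the chart `z = x / y`, `w = 1 / y`. -/
def FA_S05_ZW (W : WeierstrassCurve.Affine K) (z w : K) : Prop :=
  w + W.a₁ * z * w + W.a₃ * w ^ 2 = z ^ 3 + W.a₂ * z ^ 2 * w + W.a₄ * z * w ^ 2 + W.a₆ * w ^ 3

lemma FA_S05_ZW_of_equation {W : WeierstrassCurve.Affine K} {x y : K} (h : W.Equation x y)
    (hy : y ≠ 0) : FA_S05_ZW W (x / y) (1 / y) := by
  rw [Affine.equation_iff] at h
  unfold FA_S05_ZW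
  field_simp
  linear_combination h

variable {v}

lemma FA_S05_lt_one_pow {g : Γ₀} (hg : g < 1) {n : ℕ} (hn : n ≠ 0) : g ^ n < 1 :=
  pow_lt_one' hg hn

lemma FA_S05_pow_le_of_le_one {g : Γ₀} (hg : g ≤ 1) {m n : ℕ} (hmn : m ≤ n) : g ^ n ≤ g ^ m :=
  pow_le_pow_right_of_le_one' hg hmn

/-- In the `(z, w)` chart, small `z, w` on the curve satisfy `v w = v z ^ 3`. -/
lemma FA_S05_ZW_val {W : WeierstrassCurve.Affine K} (hW : FA_S05_VInt v W) {z w : K}
    (h : FA_S05_ZW W z w) (hz : v z < 1) (hw : v w < 1) : v w = v z ^ 3 := by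
  obtain ⟨h1, h2, h3, h4, h6⟩ := hW
  have hU : v (1 + (W.a₁ * z + W.a₃ * w - W.a₂ * z ^ 2 - W.a₄ * z * w - W.a₆ * w ^ 2)) = 1 := by
    apply v.map_one_add_of_lt
    have hz2 : v (z ^ 2) < 1 := by rw [map_pow]; exact FA_S05_lt_one_pow hz two_ne_zero
    have hw2 : v (w ^ 2) < 1 := by rw [map_pow]; exact FA_S05_lt_one_pow hw two_ne_zero
    refine v.map_sub_lt (v.map_sub_lt (v.map_sub_lt (v.map_add_lt ?_ ?_) ?_) ?_) ?_
    · exact lt_of_le_of_lt (FA_S05_v_mul_left v h1 le_rfl) hz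
    · exact lt_of_le_of_lt (FA_S05_v_mul_left v h3 le_rfl) hw
    · exact lt_of_le_of_lt (FA_S05_v_mul_left v h2 le_rfl) hz2
    · rw [mul_assoc]
      exact lt_of_le_of_lt (FA_S05_v_mul_left v h4 (FA_S05_v_mul_right v le_rfl hw.le)) hz
    · exact lt_of_le_of_lt (FA_S05_v_mul_left v h6 le_rfl) hw2
  have hmul : w * (1 + (W.a₁ * z + W.a₃ * w - W.a₂ * z ^ 2 - W.a₄ * z * w - W.a₆ * w ^ 2))
      = z ^ 3 := by
    unfold FA_S05_ZW at h
    linear_combination h
  have := congrArg v hmul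
  rw [map_mul, hU, mul_one, map_pow] at this
  exact this


/-- A point of the kernel of reduction has `v x < v y`. -/
lemma FA_S05_E1_x_lt_y {W : WeierstrassCurve.Affine K} (hW : FA_S05_VInt v W) {x y : K}
    (h : W.Equation x y) (hx : 1 < v x) : v x < v y := by
  obtain ⟨h1, h2, h3, h4, h6⟩ := hW
  by_contra hcon
  rw [not_lt] at hcon
  rw [Affine.equation_iff] at h
  have hx1 : v x ≤ v x ^ 2 := by
    calc v x = v x ^ 1 := (pow_one _).symm
      _ ≤ v x ^ 2 := pow_le_pow_right' hx.le (by norm_num)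
  have h1x : (1 : Γ₀) ≤ v x ^ 2 := le_trans hx.le hx1
  have hx3 : x ^ 3 = y ^ 2 + W.a₁ * x * y + W.a₃ * y - W.a₂ * x ^ 2 - W.a₄ * x - W.a₆ := by
    linear_combination -h
  have hle : v (x ^ 3) ≤ v x ^ 2 := by
    rw [hx3]
    refine v.map_sub_le (v.map_sub_le (v.map_sub_le (v.map_add_le (v.map_add_le ?_ ?_) ?_) ?_) ?_) ?_
    · rw [map_pow]; exact pow_le_pow_left' hcon 2
    · rw [mul_assoc]
      refine FA_S05_v_mul_left v h1 ?_
      rw [map_mul, pow_two]
      exact mul_le_mul' le_rfl hcon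
    · exact FA_S05_v_mul_left v h3 (le_trans hcon hx1)
    · refine FA_S05_v_mul_left v h2 ?_
      rw [map_pow]
    · exact FA_S05_v_mul_left v h4 hx1
    · exact le_trans h6 h1x
  rw [map_pow] at hle
  have hlt : v x ^ 2 < v x ^ 3 := by
    have hx0 : (0 : Γ₀) < v x := lt_trans zero_lt_one hx
    calc v x ^ 2 = v x ^ 2 * 1 := (mul_one _).symm
      _ < v x ^ 2 * v x := by
        exact mul_lt_mul_of_pos_left hx (pow_pos hx0 2)
      _ = v x ^ 3 := by rw [← pow_succ]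
  exact absurd hle (not_le.mpr hlt)

/-- Coordinates `z = x / y`, `w = 1 / y` of a point of the kernel of reduction. -/
lemma FA_S05_E1_coords {W : WeierstrassCurve.Affine K} (hW : FA_S05_VInt v W) {x y : K}
    (h : W.Equation x y) (hx : 1 < v x) :
    y ≠ 0 ∧ x ≠ 0 ∧ v (x / y) < 1 ∧ v (1 / y) < 1 ∧ v (x / y) ≠ 0 ∧
      v (1 / y) = v (x / y) ^ 3 ∧ v x * v (x / y) ^ 2 = 1 := by
  have hxy := FA_S05_E1_x_lt_y hW h hx
  have hx0 : (0 : Γ₀) < v x := lt_trans zero_lt_one hx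
  have hy0 : (0 : Γ₀) < v y := lt_trans hx0 hxy
  have hyne : y ≠ 0 := by
    rintro rfl
    simp at hy0
  have hxne : x ≠ 0 := by
    rintro rfl
    simp at hx0
  have hz : v (x / y) < 1 := by
    rw [map_div₀]
    exact (div_lt_one₀ hy0).mpr hxy
  have hw : v (1 / y) < 1 := by
    rw [map_div₀, map_one]
    exact (div_lt_one₀ hy0).mpr (lt_trans hx hxy)
  have hzne : v (x / y) ≠ 0 := by
    rw [Valuation.ne_zero_iff]
    exact div_ne_zero hxne hyne
  have hval := FA_S05_ZW_val hW (FA_S05_ZW_of_equation h hyne) hz hw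
  refine ⟨hyne, hxne, hz, hw, hzne, hval, ?_⟩
  have hxeq : x = (x / y) / (1 / y) := by
    field_simp
  have hvx : v x = v (x / y) / v (1 / y) := by
    conv_lhs => rw [hxeq]
    rw [map_div₀]
  rw [hvx, hval]
  field_simp

/-- Conversely, a point with small `z, w` lies in the kernel of reduction. -/
lemma FA_S05_E1_of_small {W : WeierstrassCurve.Affine K} (hW : FA_S05_VInt v W) {x y : K}
    (h : W.Equation x y) (hy : y ≠ 0) (hz : v (x / y) < 1) (hw : v (1 / y) < 1) : 1 < v x := by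
  have hval := FA_S05_ZW_val hW (FA_S05_ZW_of_equation h hy) hz hw
  have hwne : v (1 / y) ≠ 0 := by
    rw [Valuation.ne_zero_iff]
    exact one_div_ne_zero hy
  have hzne : v (x / y) ≠ 0 := by
    intro h0
    rw [h0] at hval
    simp at hval
    exact hy hval
  have hz0 : (0 : Γ₀) < v (x / y) := zero_lt_iff.mpr hzne
  have hxeq : x = (x / y) / (1 / y) := by
    field_simp
  have hvx : v x = v (x / y) / v (1 / y) := by
    conv_lhs => rw [hxeq]
    rw [map_div₀]
  rw [hvx, hval]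
  rw [lt_div_iff₀ (pow_pos hz0 3), one_mul]
  calc v (x / y) ^ 3 = v (x / y) ^ 2 * v (x / y) := pow_succ _ 2
    _ < 1 * v (x / y) := by
      exact mul_lt_mul_of_pos_right (FA_S05_lt_one_pow hz two_ne_zero) hz0
    _ = v (x / y) := one_mul _

/-- Negation changes `z` to `-z` up to second order. -/
lemma FA_S05_neg_z {W : WeierstrassCurve.Affine K} (hW : FA_S05_VInt v W) {x y : K}
    (h : W.Equation x y) (hx : 1 < v x) :
    v (x / W.negY x y + x / y) ≤ v (x / y) ^ 2 := by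
  obtain ⟨hyne, hxne, hz, hw, hzne, hval, hxz⟩ := FA_S05_E1_coords hW h hx
  have hxy := FA_S05_E1_x_lt_y hW h hx
  obtain ⟨h1, h2, h3, h4, h6⟩ := hW
  have hlin : v (W.a₁ * x + W.a₃) ≤ v x := by
    refine v.map_add_le (FA_S05_v_mul_left v h1 le_rfl) (le_trans h3 hx.le)
  have hnegY : v (W.negY x y) = v y := by
    have : W.negY x y = -(y + (W.a₁ * x + W.a₃)) := by
      rw [Affine.negY]; ring
    rw [this, v.map_neg]
    exact v.map_add_eq_of_lt_left (lt_of_le_of_lt hlin hxy)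
  have hy0 : (0 : Γ₀) < v y := lt_trans (lt_trans zero_lt_one hx) hxy
  have hnne : W.negY x y ≠ 0 := by
    intro h0
    rw [h0, map_zero] at hnegY
    exact (ne_of_gt hy0) hnegY.symm
  have hid : x / W.negY x y + x / y = -(x * (W.a₁ * x + W.a₃)) / (W.negY x y * y) := by
    have : W.negY x y = -y - W.a₁ * x - W.a₃ := rfl
    field_simp
    rw [this]
    ring
  rw [hid, map_div₀, v.map_neg, map_mul, map_mul, hnegY, map_div₀, div_pow]
  rw [div_le_div_iff₀ (mul_pos hy0 hy0) (pow_pos hy0 2)]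
  calc v x * v (W.a₁ * x + W.a₃) * v y ^ 2 ≤ v x * v x * v y ^ 2 := by
        exact mul_le_mul' (mul_le_mul' le_rfl hlin) le_rfl
    _ = v x ^ 2 * (v y * v y) := by rw [pow_two, pow_two]

end Fermat.Agent.S05
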