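import Fermat.Agent.S05.Close
import Fermat.Agent.S05.G0

/-!
# S05 library L: L3 (helper9)

For `σ` in the inertia group and `P` in the kernel of reduction or integral with nonsingular
reduction, `σ • P - P` is in the kernel of reduction.
-/

namespace Fermat.Agent.S05

open WeierstrassCurve
open scoped WeierstrassCurve.Affine

variable {K : Type*} [Field K]

/-- **L2 (closeness)**, `ValuationSubring` form. -/
theorem FA_S05_close [DecidableEq K] (A : ValuationSubring K) {W : WeierstrassCurve.Affine K}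
    (hW : FA_S05_Integral A W) {x y x' y' : K}
    (h : W.Nonsingular x y) (h' : W.Nonsingular x' y')
    (hP : FA_S05_NS A (Affine.Point.some x y h))
    (hxx : x' - x ∈ A.nonunits) (hyy : y' - y ∈ A.nonunits) :
    FA_S05_E1 A (Affine.Point.some x' y' h' - Affine.Point.some x y h) := by
  rw [FA_S05_E1_iff_E1v]
  rw [FA_S05_NS_some] at hP
  obtain ⟨hx, hy, hns⟩ := hP
  refine FA_S05_close_v (FA_S05_VInt_of_Integral hW) h h'
    ((A.valuation_le_one_iff _).mpr hx) ((A.valuation_le_one_iff _).mpr hy)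
    (A.mem_nonunits_iff.mp hxx) (A.mem_nonunits_iff.mp hyy) ?_
  rcases hns with h1 | h1
  · left
    rw [A.mem_nonunits_iff, not_lt] at h1
    exact h1
  · right
    rw [A.mem_nonunits_iff, not_lt] at h1
    exact h1

section galois

variable {R S : Type*} [CommRing R] [Field S] [DecidableEq K] [Algebra R S] [Algebra R K]
  [Algebra S K] [IsScalarTower R S K]

lemma FA_S05_smul_some (W' : WeierstrassCurve.Affine R) (σ : K ≃ₐ[S] K) {x y : K}
    (h : (W'⁄K).Nonsingular x y) :
    ∃ h' : (W'⁄K).Nonsingular (σ x) (σ y),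
      σ • (Affine.Point.some x y h : (W'⁄K).Point) = Affine.Point.some (σ x) (σ y) h' :=
  ⟨(W'.baseChange_nonsingular σ.toAlgHom.injective x y).mpr h, rfl⟩

lemma FA_S05_smul_zero (W' : WeierstrassCurve.Affine R) (σ : K ≃ₐ[S] K) :
    σ • (0 : (W'⁄K).Point) = 0 :=
  rfl

/-- The kernel of reduction is stable under the decomposition group. -/
theorem FA_S05_E1_smul (W' : WeierstrassCurve.Affine R) (A : ValuationSubring K)
    (σ : K ≃ₐ[S] K) (hσ : σ ∈ A.decompositionSubgroup S) {P : (W'⁄K).Point}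
    (hP : FA_S05_E1 A P) : FA_S05_E1 A (σ • P) := by
  rcases P with _ | ⟨x, y, h⟩
  · exact Or.inl rfl
  · obtain ⟨h', he⟩ := FA_S05_smul_some W' σ h
    rw [he, FA_S05_E1_some]
    rw [FA_S05_E1_some] at hP
    rwa [FA_S05_decomp_mem_iff A σ hσ]

/-- **L3**: for `σ` in the inertia group and `P` in the kernel of reduction or integral with
nonsingular reduction, `σ • P - P` is in the kernel of reduction. -/
theorem FA_S05_L3 (W' : WeierstrassCurve.Affine R) (A : ValuationSubring K)
    (hW : FA_S05_Integral A (W'⁄K)) (σ : K ≃ₐ[S] K) (hσ : σ ∈ A.inertiaSubgroupIn S)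
    (P : (W'⁄K).Point) (hP : FA_S05_E1 A P ∨ FA_S05_NS A P) :
    FA_S05_E1 A (σ • P - P) := by
  rcases hP with hP | hP
  · exact FA_S05_E1_sub A hW
      (FA_S05_E1_smul W' A σ (FA_S05_inertiaIn_le_decomp A σ hσ) hP) hP
  · obtain ⟨x, y, h, rfl, hx, hy, hns⟩ := hP
    obtain ⟨h', he⟩ := FA_S05_smul_some W' σ h
    rw [he]
    exact FA_S05_close A hW h h' ((FA_S05_NS_some A h).mpr ⟨hx, hy, hns⟩)
      (FA_S05_G0 A σ hσ x hx).2 (FA_S05_G0 A σ hσ y hy).2

end galois

end Fermat.Agent.S05
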