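import Mathlib

/-!
# S05, multiplicative case: the relation `γ ≈ γ'` modulo `⟨B²⟩` and sign
-/

namespace Fermat.Agent.S05

variable {Γ : Type*} [LinearOrderedCommGroupWithZero Γ]

/-- `γ = γ' B^{2k}` or `γ γ' = B^{2k}` for some integer `k`. -/
def FA_S05_mRel (B γ γ' : Γ) : Prop :=
  ∃ k : ℤ, γ = γ' * B ^ (2 * k) ∨ γ * γ' = B ^ (2 * k)

lemma FA_S05_mRel.refl (B γ : Γ) : FA_S05_mRel B γ γ :=
  ⟨0, Or.inl (by simp)⟩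

lemma FA_S05_mRel.of_eq {B γ γ' : Γ} (h : γ = γ') : FA_S05_mRel B γ γ' :=
  h ▸ FA_S05_mRel.refl B γ

lemma FA_S05_mRel.of_mul_eq_one {B γ γ' : Γ} (h : γ * γ' = 1) : FA_S05_mRel B γ γ' :=
  ⟨0, Or.inr (by simpa using h)⟩

lemma FA_S05_mRel.of_mul_eq_sq {B γ γ' : Γ} (h : γ * γ' = B ^ 2) : FA_S05_mRel B γ γ' :=
  ⟨1, Or.inr (by rw [h]; norm_cast)⟩

lemma FA_S05_mRel.symm {B γ γ' : Γ} (hB : B ≠ 0) (h : FA_S05_mRel B γ γ') :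
    FA_S05_mRel B γ' γ := by
  obtain ⟨k, h | h⟩ := h
  · refine ⟨-k, Or.inl ?_⟩
    rw [h, mul_assoc, ← zpow_add₀ hB]
    simp
  · exact ⟨k, Or.inr (by rw [mul_comm, h])⟩

lemma FA_S05_mRel.trans {B γ γ' γ'' : Γ} (hB : B ≠ 0) (h0 : γ' ≠ 0)
    (h : FA_S05_mRel B γ γ') (h' : FA_S05_mRel B γ' γ'') : FA_S05_mRel B γ γ'' := by
  obtain ⟨k, h | h⟩ := h <;> obtain ⟨l, h' | h'⟩ := h'
  · refine ⟨l + k, Or.inl ?_⟩
    rw [h, h', mul_assoc, ← zpow_add₀ hB, mul_add]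
  · refine ⟨l + k, Or.inr ?_⟩
    rw [h, mul_right_comm, h', ← zpow_add₀ hB, mul_add]
  · refine ⟨k - l, Or.inr ?_⟩
    apply mul_right_cancel₀ (zpow_ne_zero (2 * l) hB)
    rw [mul_assoc, ← h', h, ← zpow_add₀ hB]
    congr 1
    ring
  · refine ⟨k - l, Or.inl ?_⟩
    apply mul_right_cancel₀ h0
    rw [h, mul_right_comm, mul_comm γ'', h', ← zpow_add₀ hB]
    congr 1
    ring

/-- Multiplying both sides by `ρ^{±1}`. -/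
lemma FA_S05_mRel.mul_pair {B c γ : Γ} (ρ : Γ) (hρ : ρ ≠ 0) (h : FA_S05_mRel B c γ) :
    (FA_S05_mRel B (c * ρ) (γ * ρ) ∧ FA_S05_mRel B (c / ρ) (γ / ρ)) ∨
      (FA_S05_mRel B (c * ρ) (γ / ρ) ∧ FA_S05_mRel B (c / ρ) (γ * ρ)) := by
  obtain ⟨k, h | h⟩ := h
  · left
    refine ⟨⟨k, Or.inl ?_⟩, ⟨k, Or.inl ?_⟩⟩
    · rw [h, mul_right_comm]
    · rw [h, div_eq_mul_inv, div_eq_mul_inv, mul_right_comm]
  · right
    refine ⟨⟨k, Or.inr ?_⟩, ⟨k, Or.inr ?_⟩⟩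
    · rw [← h]
      field_simp
    · rw [← h]
      field_simp

end Fermat.Agent.S05
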