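import Fermat.Agent.S05.MultPairRule

/-!
# S05, multiplicative case, part C5: the component analysis

Main results, for a curve `y² + xy = x³ + a₂x² + a₄x` with a node at `(0,0)` modulo `v`:

* `FA_S05_m_torsion_val` : if `P = (x, y)` is of node type (`v a₄ < v x < 1`) and `n • P = 0`
  then `(v x)ⁿ = (v a₄)^{2k}` for some integer `k`.
* `FA_S05_m_same_val` : if `P₁`, `P₂` are of node type with `v x₁ = v x₂` then `P₁ - P₂` or
  `P₁ + P₂` is `O` or has `1 ≤ v x`.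
-/

open WeierstrassCurve WeierstrassCurve.Affine

namespace Fermat.Agent.S05

variable {K : Type*} [Field K] {W : WeierstrassCurve.Affine K}
variable {Γ : Type*} [LinearOrderedCommGroupWithZero Γ] {v : Valuation K Γ}

lemma FA_S05_mCls_ne_zero (hW : FA_S05_mMult W v) (P : W.Point) : FA_S05_mCls v P ≠ 0 := by
  cases P with
  | zero => exact one_ne_zero
  | some x y h =>
    rw [FA_S05_mCls_some]
    exact (lt_of_lt_of_le (zero_lt_iff.2 hW.B_ne) (le_max_left _ _)).ne'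

variable [DecidableEq K]

/-- The pair rule for `Q ± P`, `P` of node type. -/
theorem FA_S05_m_pair (hW : FA_S05_mMult W v) (Q : W.Point) {x y : K} (h : W.Nonsingular x y)
    (hx : v W.a₄ < v x) (hx' : v x < 1) :
    (FA_S05_mRel (v W.a₄) (FA_S05_mCls v (Q + .some x y h)) (FA_S05_mCls v Q * v x) ∧
      FA_S05_mRel (v W.a₄) (FA_S05_mCls v (Q - .some x y h)) (FA_S05_mCls v Q / v x)) ∨
    (FA_S05_mRel (v W.a₄) (FA_S05_mCls v (Q + .some x y h)) (FA_S05_mCls v Q / v x) ∧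
      FA_S05_mRel (v W.a₄) (FA_S05_mCls v (Q - .some x y h)) (FA_S05_mCls v Q * v x)) := by
  have hx0 : v x ≠ 0 := (zero_le.trans_lt hx).ne'
  rcases Q with _ | ⟨x₁, y₁, h₁⟩
  · left
    rw [← Point.zero_def, zero_add, zero_sub, FA_S05_mCls_neg, FA_S05_mCls_zero,
      FA_S05_mCls_of_node h hx hx', one_mul]
    exact ⟨FA_S05_mRel.refl _ _, FA_S05_mRel.of_mul_eq_one (by field_simp)⟩
  · rcases le_or_gt 1 (v x₁) with h1 | h1
    · -- `Q ∈ E₀`
      left
      obtain ⟨x₃, y₃, h₃, e, f⟩ := FA_S05_m_E0_add_node hW h₁ h h1 hx hx'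
      obtain ⟨x₄, y₄, h₄, e', f'⟩ := FA_S05_m_E0_sub_node hW h₁ h h1 hx hx'
      rw [e, e', FA_S05_mCls_of_one_le hW h₁ h1, FA_S05_mCls_of_node h₃ (f ▸ hx) (f ▸ hx'),
        FA_S05_mCls_of_node h₄ (f' ▸ hx) (f' ▸ hx'), f, f', one_mul]
      exact ⟨FA_S05_mRel.refl _ _, FA_S05_mRel.of_mul_eq_one (by field_simp)⟩
    · rcases le_or_gt (v x₁) (v W.a₄) with h2 | h2
      · -- `Q` middle
        left
        obtain ⟨x₃, y₃, h₃, e, f, f1, f2⟩ := FA_S05_m_mid_add_node hW h₁ h h2 hx hx'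
        obtain ⟨x₄, y₄, h₄, e', f', f1', f2'⟩ := FA_S05_m_mid_sub_node hW h₁ h h2 hx hx'
        rw [e, e', FA_S05_mCls_of_le hW h₁ h2, FA_S05_mCls_of_node h₃ f1 f2,
          FA_S05_mCls_of_node h₄ f1' f2', f, f']
        refine ⟨FA_S05_mRel.of_mul_eq_sq ?_, FA_S05_mRel.refl _ _⟩
        field_simp
      · -- `Q` of node type
        rw [FA_S05_mCls_of_node h₁ h2 h1]
        rcases FA_S05_m_node_node_S hW h₁ h h2 h1 hx hx' with hS | hS
        · left
          exact ⟨FA_S05_m_cls_node_add_node hW h₁ h h2 h1 hx hx' hS,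
            (FA_S05_m_cls_node_sub_node hW h₁ h h2 h1 hx hx' hS).1⟩
        · right
          obtain ⟨h', e⟩ := FA_S05_m_neg_some hW.toFA_S05_mShape h
          have hS' : v (y₁ * x + (-y - x) * x₁ + x₁ * x) = v x₁ * v x := by
            rw [← hS]
            congr 1
            ring
          have a := FA_S05_m_cls_node_add_node hW h₁ h' h2 h1 hx hx' hS'
          have b := (FA_S05_m_cls_node_sub_node hW h₁ h' h2 h1 hx hx' hS').1
          rw [← e, sub_neg_eq_add] at b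
          rw [← e, ← sub_eq_add_neg] at a
          exact ⟨b, a⟩

/-- Two points of node type with the same `v x`: `P₁ - P₂` or `P₁ + P₂` has class `1`. -/
theorem FA_S05_m_same_val (hW : FA_S05_mMult W v) {x₁ y₁ x₂ y₂ : K}
    (h₁ : W.Nonsingular x₁ y₁) (h₂ : W.Nonsingular x₂ y₂)
    (hx₁ : v W.a₄ < v x₁) (hx₁' : v x₁ < 1) (hx : v x₁ = v x₂) :
    FA_S05_mCls v (Point.some x₁ y₁ h₁ - Point.some x₂ y₂ h₂) = 1 ∨
      FA_S05_mCls v (Point.some x₁ y₁ h₁ + Point.some x₂ y₂ h₂) = 1 := by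
  have hx₂ : v W.a₄ < v x₂ := hx ▸ hx₁
  have hx₂' : v x₂ < 1 := hx ▸ hx₁'
  rcases FA_S05_m_node_node_S hW h₁ h₂ hx₁ hx₁' hx₂ hx₂' with hS | hS
  · exact Or.inl ((FA_S05_m_cls_node_sub_node hW h₁ h₂ hx₁ hx₁' hx₂ hx₂' hS).2 hx)
  · right
    obtain ⟨h', e⟩ := FA_S05_m_neg_some hW.toFA_S05_mShape h₂
    have hS' : v (y₁ * x₂ + (-y₂ - x₂) * x₁ + x₁ * x₂) = v x₁ * v x₂ := by
      rw [← hS]
      congr 1
      ring
    have b := (FA_S05_m_cls_node_sub_node hW h₁ h' hx₁ hx₁' hx₂ hx₂' hS').2 hx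
    rwa [← e, sub_neg_eq_add] at b

/-- The class of `n • P` for `P` of node type. -/
theorem FA_S05_m_cls_nsmul (hW : FA_S05_mMult W v) {x y : K} (h : W.Nonsingular x y)
    (hx : v W.a₄ < v x) (hx' : v x < 1) (n : ℕ) :
    FA_S05_mRel (v W.a₄) (FA_S05_mCls v (n • Point.some x y h)) (v x ^ n) ∧
      FA_S05_mRel (v W.a₄) (FA_S05_mCls v ((n + 1) • Point.some x y h)) (v x ^ (n + 1)) := by
  have hB := hW.B_ne
  have hx0 : v x ≠ 0 := (zero_le.trans_lt hx).ne'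
  induction n with
  | zero =>
    rw [zero_smul, zero_add, one_smul, pow_zero, pow_one, FA_S05_mCls_zero,
      FA_S05_mCls_of_node h hx hx']
    exact ⟨FA_S05_mRel.refl _ _, FA_S05_mRel.refl _ _⟩
  | succ n ih =>
    obtain ⟨ih0, ih1⟩ := ih
    refine ⟨ih1, ?_⟩
    set P := Point.some x y h with hP
    set Q := (n + 1) • P with hQ
    have e1 : (n + 1 + 1) • P = Q + P := succ_nsmul P (n + 1)
    have e2 : n • P = Q - P := by rw [hQ, succ_nsmul, add_sub_cancel_right]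
    rw [e1]
    rw [e2] at ih0
    have hp1 : v x ^ (n + 1) * v x = v x ^ (n + 1 + 1) := (pow_succ _ _).symm
    have hp2 : v x ^ (n + 1) / v x = v x ^ n := by
      rw [pow_succ]
      field_simp
    have hc := FA_S05_mCls_ne_zero hW Q
    have hcm : FA_S05_mCls v Q * v x ≠ 0 := mul_ne_zero hc hx0
    have hcd : FA_S05_mCls v Q / v x ≠ 0 := div_ne_zero hc hx0
    have hm := FA_S05_mRel.mul_pair (v x) hx0 ih1
    rw [hp1, hp2] at hm
    rcases FA_S05_m_pair hW Q h hx hx' with ⟨a, b⟩ | ⟨a, b⟩ <;>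
      rcases hm with ⟨c, d⟩ | ⟨c, d⟩
    · exact a.trans hB hcm c
    · -- `cls (Q+P) ≈ cQ ρ ≈ ρⁿ`, `cls (Q-P) ≈ cQ/ρ ≈ ρ^{n+2}`, `cls (Q-P) ≈ ρⁿ`
      have h1 := (a.trans hB hcm c)
      have h2 := (b.trans hB hcd d)
      exact h1.trans hB (pow_ne_zero _ hx0)
        ((ih0.symm hB).trans hB (FA_S05_mCls_ne_zero hW _) h2)
    · have h1 := (a.trans hB hcd d)
      have h2 := (b.trans hB hcm c)
      exact h1.trans hB (pow_ne_zero _ hx0)
        ((ih0.symm hB).trans hB (FA_S05_mCls_ne_zero hW _) h2)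
    · exact a.trans hB hcd d

/-- **Component analysis**: a torsion point of node type has `(v x)ⁿ ∈ ⟨(v a₄)²⟩`. -/
theorem FA_S05_m_torsion_val (hW : FA_S05_mMult W v) {x y : K} (h : W.Nonsingular x y)
    (hx : v W.a₄ < v x) (hx' : v x < 1) (n : ℕ) (hn : n • Point.some x y h = 0) :
    ∃ k : ℤ, v x ^ n = v W.a₄ ^ (2 * k) := by
  have hB := hW.B_ne
  obtain ⟨k, hk | hk⟩ := (FA_S05_m_cls_nsmul hW h hx hx' n).1
  · rw [hn, FA_S05_mCls_zero] at hk
    refine ⟨-k, ?_⟩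
    apply mul_right_cancel₀ (zpow_ne_zero (2 * k) hB)
    rw [← hk, ← zpow_add₀ hB]
    simp
  · rw [hn, FA_S05_mCls_zero, one_mul] at hk
    exact ⟨k, hk⟩

end Fermat.Agent.S05
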