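import Fermat.Agent.S05.MultComp
import Fermat.Agent.S05.KL
import Fermat.Agent.S05.L3

/-!
# S05, multiplicative case, part D: inertia acts trivially on the `p`-torsion

Curve `y² + xy = x³ + a₂x² + a₄x` over `K` (base change of a curve over `R`), `A` a valuation
subring of `K` with `a₂ ∈ A`, `a₄ ∈ 𝔪 \ {0}`, `2, 1 + 4a₂ ∈ Aˣ`, and `v a₄ = v b₀ ^ p` with `b₀`
in the base field. Then the inertia group of `A` fixes every point killed by `p`, `p ∈ Aˣ`.
-/

open WeierstrassCurve WeierstrassCurve.Affine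

namespace Fermat.Agent.S05

variable {K : Type*} [Field K]

section local_

variable {W : WeierstrassCurve.Affine K} {A : ValuationSubring K}

lemma FA_S05_m_integral (hW : FA_S05_mMult W A.valuation) : FA_S05_Integral A W :=
  ⟨by rw [hW.a1]; exact A.one_mem, (A.valuation_le_one_iff _).1 hW.a2,
    by rw [hW.a3]; exact A.zero_mem, (A.valuation_le_one_iff _).1 hW.a4.le,
    by rw [hW.a6]; exact A.zero_mem⟩

/-- Points of class `1` are in the kernel of reduction or have nonsingular reduction. -/
lemma FA_S05_m_E1_or_NS (hW : FA_S05_mMult W A.valuation) (S : W.Point)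
    (hS : FA_S05_mCls A.valuation S = 1) : FA_S05_E1 A S ∨ FA_S05_NS A S := by
  rcases S with _ | ⟨x, y, h⟩
  · exact Or.inl (Or.inl rfl)
  · have hx1 : 1 ≤ A.valuation x := (FA_S05_mCls_eq_one_iff hW h).1 hS
    by_cases hxA : x ∈ A
    · right
      have hx : A.valuation x = 1 := le_antisymm ((A.valuation_le_one_iff _).2 hxA) hx1
      have hy : A.valuation y ≤ 1 := by
        have := FA_S05_m_vy_sq_le hW h hx1
        rw [hx, one_pow] at this
        by_contra hlt
        rw [not_le] at hlt
        exact absurd this (not_le.2 (one_lt_pow₀ hlt two_ne_zero))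
      rw [FA_S05_NS_some]
      refine ⟨hxA, (A.valuation_le_one_iff _).1 hy, ?_⟩
      by_contra hcon
      rw [not_or, not_not, not_not, A.mem_nonunits_iff, A.mem_nonunits_iff,
        evalEval_polynomialX, evalEval_polynomialY, hW.a1, hW.a3] at hcon
      obtain ⟨hX, hY⟩ := hcon
      have e := FA_S05_m_eq hW.toFA_S05_mShape h
      have key : 2 * x ^ 3 = x * ((2 * y + 1 * x + 0) -
          2 * (1 * y - (3 * x ^ 2 + 2 * W.a₂ * x + W.a₄)) - 2 * W.a₄) -
          (2 * y + 1 * x + 0) ^ 2 + 4 * W.a₄ * x := by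
        linear_combination (4 : K) * e
      have hlt : A.valuation (2 * x ^ 3) < 1 := by
        rw [key]
        refine Valuation.map_add_lt _ (Valuation.map_sub_lt _ ?_ ?_) ?_
        · rw [map_mul, hx, one_mul]
          refine Valuation.map_sub_lt _ (Valuation.map_sub_lt _ hY ?_) ?_
          · rw [map_mul, hW.two, one_mul]
            exact hX
          · rw [map_mul, hW.two, one_mul]
            exact hW.a4
        · rw [map_pow]
          exact pow_lt_one₀ zero_le hY two_ne_zero
        · rw [map_mul, map_mul, hW.four, one_mul, hx, mul_one]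
          exact hW.a4
      rw [map_mul, map_pow, hW.two, hx, one_pow, one_mul] at hlt
      exact lt_irrefl _ hlt
    · exact Or.inl ((FA_S05_E1_some A h).2 hxA)

end local_

section galois

variable {R S : Type*} [CommRing R] [Field S] [DecidableEq K] [Algebra R S] [Algebra R K]
  [Algebra S K] [IsScalarTower R S K]

/-- A point of node type whose `x`-coordinate is fixed by `σ` (in the inertia group) is fixed
by `σ`. -/
lemma FA_S05_m_smul_eq_of_x (W' : WeierstrassCurve.Affine R) (A : ValuationSubring K)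
    (hW : FA_S05_mMult (W'⁄K) A.valuation) (σ : K ≃ₐ[S] K) (hσ : σ ∈ A.inertiaSubgroupIn S)
    {x y : K} (h : (W'⁄K).Nonsingular x y) (hx : σ x = x)
    (h1 : A.valuation (W'⁄K).a₄ < A.valuation x) (h2 : A.valuation x < 1) :
    σ • (Point.some x y h : (W'⁄K).Point) = Point.some x y h := by
  obtain ⟨h', he⟩ := FA_S05_smul_some W' σ h
  rw [he]
  have key : ∀ (a b : K) (hab : (W'⁄K).Nonsingular a b), a = x → b = y →
      (Point.some a b hab : (W'⁄K).Point) = Point.some x y h := by
    rintro a b hab rfl rfl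
    rfl
  refine key _ _ h' hx ?_
  have hx0 : A.valuation x ≠ 0 := (zero_le.trans_lt h1).ne'
  have hxne : x ≠ 0 := (Valuation.ne_zero_iff _).1 hx0
  have h'' : (W'⁄K).Nonsingular x (σ y) := hx ▸ h'
  rcases Y_eq_of_X_eq h''.1 h.1 rfl with hy | hy
  · exact hy
  · exfalso
    rw [FA_S05_m_negY hW.toFA_S05_mShape] at hy
    have hyx : A.valuation y ≤ A.valuation x := FA_S05_m_vy_le hW h h1.le h2.le
    have hη : y / x ∈ A := by
      rw [← A.valuation_le_one_iff, map_div₀]
      exact div_le_one_of_le₀ hyx zero_le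
    have hG := (FA_S05_G0 A σ hσ (y / x) hη).2
    rw [map_div₀, hx, hy, A.mem_nonunits_iff] at hG
    have e : (-y - x) / x - y / x = -((2 * y + x) / x) := by
      field_simp
      ring
    rw [e, Valuation.map_neg, map_div₀, FA_S05_m_v_two_y_add_x hW h h1 h2, div_self hx0] at hG
    exact lt_irrefl _ hG

omit [DecidableEq K] in
/-- Existence of a point of node type with prescribed `x`-coordinate. -/
lemma FA_S05_m_exists_point [IsAlgClosed K] {W : WeierstrassCurve.Affine K}
    {A : ValuationSubring K} (hW : FA_S05_mMult W A.valuation) (x : K)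
    (h1 : A.valuation W.a₄ < A.valuation x) (h2 : A.valuation x < 1) :
    ∃ y, W.Nonsingular x y := by
  have hx0 : A.valuation x ≠ 0 := (zero_le.trans_lt h1).ne'
  have hxne : x ≠ 0 := (Valuation.ne_zero_iff _).1 hx0
  have h2ne : (2 : K) ≠ 0 := by
    apply (Valuation.ne_zero_iff A.valuation).1
    rw [hW.two]
    exact one_ne_zero
  obtain ⟨z, hz⟩ := IsAlgClosed.exists_pow_nat_eq
    (x * (4 * x ^ 2 + (1 + 4 * W.a₂) * x + 4 * W.a₄)) (n := 2) (by norm_num)
  have hzne : z ≠ 0 := by
    rintro rfl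
    have hD := FA_S05_m_vD hW h1 h2
    have : A.valuation (x * (4 * x ^ 2 + (1 + 4 * W.a₂) * x + 4 * W.a₄)) ≠ 0 := by
      rw [map_mul, hD]
      exact mul_ne_zero hx0 hx0
    rw [← hz] at this
    simp at this
  refine ⟨(z - x) / 2, ?_⟩
  rw [Affine.nonsingular_iff]
  refine ⟨?_, Or.inr ?_⟩
  · rw [FA_S05_m_equation hW.toFA_S05_mShape]
    field_simp
    linear_combination hz
  · rw [hW.a1, hW.a3]
    intro hcon
    apply hzne
    field_simp at hcon
    have h2z : 2 * z = 0 := by linear_combination hcon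
    exact (mul_eq_zero.1 h2z).resolve_left h2ne

/-- For every point `P` killed by `p` there is an inertia-fixed point `R'` with `P + R'` of
class `1`. -/
lemma FA_S05_m_exists_fixed [IsAlgClosed K] (W' : WeierstrassCurve.Affine R)
    (A : ValuationSubring K) (hW : FA_S05_mMult (W'⁄K) A.valuation)
    (σ : K ≃ₐ[S] K) (hσ : σ ∈ A.inertiaSubgroupIn S)
    (p : ℕ) (hp : p ≠ 0) (b₀ : S)
    (hb : A.valuation (W'⁄K).a₄ = A.valuation (algebraMap S K b₀) ^ p)
    (P : (W'⁄K).Point) (hP : p • P = 0) :
    ∃ R' : (W'⁄K).Point, σ • R' = R' ∧ FA_S05_mCls A.valuation (P + R') = 1 := by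
  rcases P with _ | ⟨x, y, h⟩
  · exact ⟨0, rfl, rfl⟩
  · rcases le_or_gt 1 (A.valuation x) with h1 | h1
    · refine ⟨0, rfl, ?_⟩
      rw [add_zero]
      exact FA_S05_mCls_of_one_le hW h h1
    · rcases le_or_gt (A.valuation x) (A.valuation (W'⁄K).a₄) with h2 | h2
      · -- middle: use `T`
        refine ⟨FA_S05_mT hW, ?_, ?_⟩
        · obtain ⟨h', he⟩ := FA_S05_smul_some W' σ
            (FA_S05_m_nonsingular_T hW.toFA_S05_mShape hW.a4ne)
          unfold FA_S05_mT
          rw [he]
          have key : ∀ (a b : K) (hab : (W'⁄K).Nonsingular a b), a = 0 → b = 0 →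
              (Point.some a b hab : (W'⁄K).Point) =
                Point.some 0 0 (FA_S05_m_nonsingular_T hW.toFA_S05_mShape hW.a4ne) := by
            rintro a b hab rfl rfl
            rfl
          exact key _ _ h' (map_zero σ) (map_zero σ)
        · by_cases hx0 : x = 0
          · subst hx0
            rw [FA_S05_m_eq_T hW h, FA_S05_mT_add_self]
            rfl
          · obtain ⟨x₃, y₃, h₃, e, f⟩ := FA_S05_m_mid_add_T hW h h2 hx0
            rw [e]
            exact FA_S05_mCls_of_one_le hW h₃ f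
      · -- node type
        obtain ⟨k, hk⟩ := FA_S05_m_torsion_val hW h h2 h1 p hP
        set β : K := algebraMap S K b₀ with hβ
        have hx0 : A.valuation x ≠ 0 := (zero_le.trans_lt h2).ne'
        have hvx : A.valuation x = A.valuation (β ^ (2 * k)) := by
          rw [map_zpow₀]
          apply (pow_left_inj₀ zero_le zero_le hp).1
          rw [hk, hb, ← zpow_natCast, ← zpow_natCast, ← zpow_mul, ← zpow_mul, mul_comm]
        have hfix : σ (β ^ (2 * k)) = β ^ (2 * k) := by
          rw [map_zpow₀, hβ, σ.commutes]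
        obtain ⟨y₀, h₀⟩ := FA_S05_m_exists_point hW (β ^ (2 * k)) (hvx ▸ h2) (hvx ▸ h1)
        have hR := FA_S05_m_smul_eq_of_x W' A hW σ hσ h₀ hfix (hvx ▸ h2) (hvx ▸ h1)
        rcases FA_S05_m_same_val hW h h₀ h2 h1 hvx with hc | hc
        · refine ⟨-Point.some _ _ h₀, ?_, ?_⟩
          · rw [smul_neg, hR]
          · rwa [← sub_eq_add_neg]
        · exact ⟨Point.some _ _ h₀, hR, hc⟩

/-- **Multiplicative case**: the inertia group fixes the `p`-torsion. -/
theorem FA_S05_m_inertia_fixed [IsAlgClosed K] (W' : WeierstrassCurve.Affine R)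
    (A : ValuationSubring K) (hW : FA_S05_mMult (W'⁄K) A.valuation)
    (σ : K ≃ₐ[S] K) (hσ : σ ∈ A.inertiaSubgroupIn S)
    (p : ℕ) (hp : (p : K) ∉ A.nonunits) (b₀ : S)
    (hb : A.valuation (W'⁄K).a₄ = A.valuation (algebraMap S K b₀) ^ p)
    (P : (W'⁄K).Point) (hP : p • P = 0) : σ • P = P := by
  have hp0 : p ≠ 0 := by
    rintro rfl
    apply hp
    rw [A.mem_nonunits_iff]
    simp
  have hInt := FA_S05_m_integral hW
  obtain ⟨R', hR', hcls⟩ := FA_S05_m_exists_fixed W' A hW σ hσ p hp0 b₀ hb P hP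
  have h1 := FA_S05_L3 W' A hInt σ hσ (P + R') (FA_S05_m_E1_or_NS hW _ hcls)
  rw [smul_add, hR', add_sub_add_right_eq_sub] at h1
  have h2 : p • (σ • P - P) = 0 := by
    have : σ • (p • P) = p • (σ • P) :=
      map_nsmul (DistribSMul.toAddMonoidHom (W'⁄K).Point σ) p P
    rw [smul_sub, ← this, hP, smul_zero, sub_zero]
  exact sub_eq_zero.1 (FA_S05_KL A (W'⁄K) hInt p hp _ h1 h2)

end galois

end Fermat.Agent.S05
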