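import Mathlib

/-!
# S05, multiplicative case, part A: exact addition formulas

Curves of the shape `y² + xy = x³ + a₂x² + a₄x` (`a₁ = 1`, `a₃ = 0`, `a₆ = 0`): this is the shape of
the Frey curve of the prelude. All formulas are stated for Mathlib's group law on
`WeierstrassCurve.Affine.Point`.
-/

open WeierstrassCurve WeierstrassCurve.Affine

namespace Fermat.Agent.S05

variable {K : Type*} [Field K] {W : WeierstrassCurve.Affine K}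

/-- The shape `y² + xy = x³ + a₂x² + a₄x`. -/
structure FA_S05_mShape (W : WeierstrassCurve.Affine K) : Prop where
  a1 : W.a₁ = 1
  a3 : W.a₃ = 0
  a6 : W.a₆ = 0

lemma FA_S05_m_equation (hW : FA_S05_mShape W) (x y : K) :
    W.Equation x y ↔ y ^ 2 + x * y = x ^ 3 + W.a₂ * x ^ 2 + W.a₄ * x := by
  rw [Affine.equation_iff, hW.a1, hW.a3, hW.a6]
  constructor <;> intro h <;> linear_combination h

lemma FA_S05_m_eq (hW : FA_S05_mShape W) {x y : K} (h : W.Nonsingular x y) :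
    y ^ 2 + x * y = x ^ 3 + W.a₂ * x ^ 2 + W.a₄ * x :=
  (FA_S05_m_equation hW x y).1 h.1

lemma FA_S05_m_negY (hW : FA_S05_mShape W) (x y : K) : W.negY x y = -y - x := by
  simp [negY, hW.a1, hW.a3]

/-- `(2y + x)² = x (4x² + (1 + 4a₂) x + 4a₄)`. -/
lemma FA_S05_m_sq_two_y_add_x (hW : FA_S05_mShape W) {x y : K} (h : W.Nonsingular x y) :
    (2 * y + x) ^ 2 = x * (4 * x ^ 2 + (1 + 4 * W.a₂) * x + 4 * W.a₄) := by
  linear_combination 4 * FA_S05_m_eq hW h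

/-- `S₊ S₋ = x₁ x₂ (x₁ - x₂) (x₁ x₂ - a₄)`. -/
lemma FA_S05_m_Splus_mul_Sminus (hW : FA_S05_mShape W) {x₁ y₁ x₂ y₂ : K}
    (h₁ : W.Nonsingular x₁ y₁) (h₂ : W.Nonsingular x₂ y₂) :
    (y₁ * x₂ + y₂ * x₁ + x₁ * x₂) * (y₁ * x₂ - y₂ * x₁) =
      x₁ * x₂ * (x₁ - x₂) * (x₁ * x₂ - W.a₄) := by
  linear_combination x₂ ^ 2 * FA_S05_m_eq hW h₁ - x₁ ^ 2 * FA_S05_m_eq hW h₂

/-- The point `T = (0,0)`. -/
lemma FA_S05_m_nonsingular_T (hW : FA_S05_mShape W) (h4 : W.a₄ ≠ 0) : W.Nonsingular 0 0 := by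
  rw [Affine.nonsingular_iff]
  refine ⟨by rw [FA_S05_m_equation hW]; ring, Or.inl ?_⟩
  simpa [hW.a1] using h4.symm

/-- A point with `x = 0` is `T = (0, 0)`. -/
lemma FA_S05_m_y_eq_zero (hW : FA_S05_mShape W) {y : K} (h : W.Nonsingular 0 y) : y = 0 := by
  have e := FA_S05_m_eq hW h
  have : y ^ 2 = 0 := by linear_combination e
  exact pow_eq_zero_iff (two_ne_zero) |>.1 this

variable [DecidableEq K]

/-- Chord formula: for `x₁ ≠ x₂`, `x(P₁ + P₂) · x₁ x₂ (x₁ - x₂)² = (y₁ x₂ - y₂ x₁)²`. -/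
lemma FA_S05_m_add_of_X_ne (hW : FA_S05_mShape W) {x₁ y₁ x₂ y₂ : K}
    (h₁ : W.Nonsingular x₁ y₁) (h₂ : W.Nonsingular x₂ y₂) (hx : x₁ ≠ x₂) :
    ∃ x₃ y₃ h₃, Point.some x₁ y₁ h₁ + Point.some x₂ y₂ h₂ = Point.some x₃ y₃ h₃ ∧
      x₃ * (x₁ * x₂ * (x₁ - x₂) ^ 2) = (y₁ * x₂ - y₂ * x₁) ^ 2 := by
  refine ⟨_, _, _, Point.add_of_X_ne hx, ?_⟩
  have hx' : x₁ - x₂ ≠ 0 := sub_ne_zero.mpr hx
  have e₁ := FA_S05_m_eq hW h₁
  have e₂ := FA_S05_m_eq hW h₂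
  simp only [addX, slope_of_X_ne hx, hW.a1]
  field_simp
  linear_combination (x₁ * x₂ - x₂ ^ 2) * e₁ + (-x₁ ^ 2 + x₁ * x₂) * e₂

/-- Tangent formula: for `2y + x ≠ 0`, `x(2P) · (2y + x)² = (x² - a₄)²`. -/
lemma FA_S05_m_add_self (hW : FA_S05_mShape W) {x y : K}
    (h : W.Nonsingular x y) (hy : 2 * y + x ≠ 0) :
    ∃ x₃ y₃ h₃, Point.some x y h + Point.some x y h = Point.some x₃ y₃ h₃ ∧
      x₃ * (2 * y + x) ^ 2 = (x ^ 2 - W.a₄) ^ 2 := by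
  have hy' : y ≠ W.negY x y := by
    rw [FA_S05_m_negY hW]
    intro h'
    apply hy
    linear_combination h'
  refine ⟨_, _, _, Point.add_self_of_Y_ne hy', ?_⟩
  have e := FA_S05_m_eq hW h
  have hd : y - W.negY x y = 2 * y + x := by rw [FA_S05_m_negY hW]; ring
  simp only [addX, slope_of_Y_ne rfl hy', hW.a1, hd]
  field_simp
  linear_combination (-8 * x - 4 * W.a₂ - 1) * e

/-- Unified formula: for `S₊ = y₁x₂ + y₂x₁ + x₁x₂ ≠ 0` (chord or tangent),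
`x(P₁ + P₂) · S₊² = x₁ x₂ (x₁ x₂ - a₄)²`. -/
lemma FA_S05_m_add_of_Splus_ne (hW : FA_S05_mShape W) {x₁ y₁ x₂ y₂ : K}
    (h₁ : W.Nonsingular x₁ y₁) (h₂ : W.Nonsingular x₂ y₂)
    (hS : y₁ * x₂ + y₂ * x₁ + x₁ * x₂ ≠ 0) :
    ∃ x₃ y₃ h₃, Point.some x₁ y₁ h₁ + Point.some x₂ y₂ h₂ = Point.some x₃ y₃ h₃ ∧
      x₃ * (y₁ * x₂ + y₂ * x₁ + x₁ * x₂) ^ 2 = x₁ * x₂ * (x₁ * x₂ - W.a₄) ^ 2 := by
  have hx₁ : x₁ ≠ 0 := by
    rintro rfl
    have := FA_S05_m_y_eq_zero hW h₁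
    subst this
    simp at hS
  have hx₂ : x₂ ≠ 0 := by
    rintro rfl
    have := FA_S05_m_y_eq_zero hW h₂
    subst this
    simp at hS
  by_cases hx : x₁ = x₂
  · subst hx
    have hy' : y₁ ≠ W.negY x₁ y₂ := by
      rw [FA_S05_m_negY hW]
      intro h'
      apply hS
      rw [h']
      ring
    have hy : y₁ = y₂ := Y_eq_of_Y_ne h₁.1 h₂.1 rfl hy'
    subst hy
    have h2 : 2 * y₁ + x₁ ≠ 0 := by
      intro h'
      apply hS
      linear_combination x₁ * h'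
    obtain ⟨x₃, y₃, h₃, e, f⟩ := FA_S05_m_add_self hW h₁ h2
    refine ⟨x₃, y₃, h₃, e, ?_⟩
    linear_combination x₁ ^ 2 * f
  · obtain ⟨x₃, y₃, h₃, e, f⟩ := FA_S05_m_add_of_X_ne hW h₁ h₂ hx
    refine ⟨x₃, y₃, h₃, e, ?_⟩
    have g := FA_S05_m_Splus_mul_Sminus hW h₁ h₂
    have hx' : x₁ - x₂ ≠ 0 := sub_ne_zero.mpr hx
    have hne : x₁ * x₂ * (x₁ - x₂) ^ 2 ≠ 0 := by positivity
    apply mul_left_cancel₀ hne
    linear_combination (y₁ * x₂ + y₂ * x₁ + x₁ * x₂) ^ 2 * f +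
      ((y₁ * x₂ + y₂ * x₁ + x₁ * x₂) * (y₁ * x₂ - y₂ * x₁) +
        x₁ * x₂ * (x₁ - x₂) * (x₁ * x₂ - W.a₄)) * g

/-- If `S₊ = 0` then `P₁ = -P₂`, or `x₁ x₂ = a₄` with `x₁ ≠ x₂`. -/
lemma FA_S05_m_Splus_eq_zero (hW : FA_S05_mShape W) {x₁ y₁ x₂ y₂ : K}
    (h₁ : W.Nonsingular x₁ y₁) (h₂ : W.Nonsingular x₂ y₂) (hx₁ : x₁ ≠ 0) (hx₂ : x₂ ≠ 0)
    (hS : y₁ * x₂ + y₂ * x₁ + x₁ * x₂ = 0) :
    Point.some x₁ y₁ h₁ + Point.some x₂ y₂ h₂ = 0 ∨ (x₁ ≠ x₂ ∧ x₁ * x₂ = W.a₄) := by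
  by_cases hx : x₁ = x₂
  · left
    subst hx
    apply Point.add_of_Y_eq rfl
    rw [FA_S05_m_negY hW]
    have : x₁ * (y₁ + y₂ + x₁) = 0 := by linear_combination hS
    rcases mul_eq_zero.1 this with h | h
    · exact absurd h hx₁
    · linear_combination h
  · right
    refine ⟨hx, ?_⟩
    have g := FA_S05_m_Splus_mul_Sminus hW h₁ h₂
    rw [hS, zero_mul] at g
    have hx' : x₁ - x₂ ≠ 0 := sub_ne_zero.mpr hx
    have : x₁ * x₂ * (x₁ - x₂) ≠ 0 := by positivity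
    rcases mul_eq_zero.1 g.symm with h | h
    · exact absurd h this
    · linear_combination h

omit [DecidableEq K] in
/-- Negation. -/
lemma FA_S05_m_neg_some (hW : FA_S05_mShape W) {x y : K} (h : W.Nonsingular x y) :
    ∃ h', -Point.some x y h = Point.some x (-y - x) h' := by
  have e := FA_S05_m_negY hW x y
  have h' : W.Nonsingular x (-y - x) := by
    rw [← e]; exact (nonsingular_neg ..).mpr h
  refine ⟨h', ?_⟩
  rw [Point.neg_some]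
  congr 1

/-- Translation by `T = (0,0)`: `x(P + T) = a₄ / x`. -/
lemma FA_S05_m_add_T (hW : FA_S05_mShape W) (h4 : W.a₄ ≠ 0) {x y : K}
    (h : W.Nonsingular x y) (hx : x ≠ 0) :
    ∃ y₃ h₃, Point.some x y h + Point.some 0 0 (FA_S05_m_nonsingular_T hW h4) =
      Point.some (W.a₄ / x) y₃ h₃ := by
  have e := FA_S05_m_eq hW h
  have key : W.addX x 0 (W.slope x 0 y 0) = W.a₄ / x := by
    simp only [addX, slope_of_X_ne hx, hW.a1]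
    field_simp
    linear_combination x * e
  refine ⟨W.addY x 0 y (W.slope x 0 y 0),
    key ▸ (nonsingular_add h (FA_S05_m_nonsingular_T hW h4) fun hxy => hx hxy.left), ?_⟩
  rw [Point.add_of_X_ne hx]
  congr 1

end Fermat.Agent.S05
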