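import Fermat.Agent.S05.MultVal

/-!
# S05, multiplicative case, part C2: the class of a point and the pair rule

`cls P ∈ [v a₄, 1]` is `1` for `O` and for points with `v x ≥ 1`, `v a₄` for points with
`v x ≤ v a₄`, and `v x` for the points of node type.
-/

open WeierstrassCurve WeierstrassCurve.Affine

namespace Fermat.Agent.S05

variable {K : Type*} [Field K] {W : WeierstrassCurve.Affine K}
variable {Γ : Type*} [LinearOrderedCommGroupWithZero Γ] {v : Valuation K Γ}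

section order

lemma FA_S05_m_eq_of_le_of_mul_eq {a b c : Γ} (h1 : a ≤ c) (h2 : b ≤ c) (h : a * b = c * c)
    (hc : c ≠ 0) : a = c := by
  rcases h1.lt_or_eq with h1 | h1
  · exfalso
    have : a * b < c * c := by
      calc a * b ≤ a * c := mul_le_mul_right h2 a
        _ < c * c := mul_lt_mul_of_pos_right h1 (zero_lt_iff.2 hc)
    exact absurd h this.ne
  · exact h1

lemma FA_S05_m_sq_le_of_le_max3 {t a b c M : Γ} (h : t ≤ max (max a b) c)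
    (ha : a ^ 2 ≤ M) (hb : b ^ 2 ≤ M) (hc : c ^ 2 ≤ M) : t ^ 2 ≤ M := by
  rcases le_max_iff.1 h with h | h
  · rcases le_max_iff.1 h with h | h
    · exact (pow_le_pow_left₀ zero_le h 2).trans ha
    · exact (pow_le_pow_left₀ zero_le h 2).trans hb
  · exact (pow_le_pow_left₀ zero_le h 2).trans hc

end order

/-- Valuation bound for `S₊ = y₁x₂ + y₂x₁ + x₁x₂`. -/
lemma FA_S05_m_v_Splus_le (v : Valuation K Γ) (x₁ y₁ x₂ y₂ : K) :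
    v (y₁ * x₂ + y₂ * x₁ + x₁ * x₂) ≤
      max (max (v y₁ * v x₂) (v y₂ * v x₁)) (v x₁ * v x₂) := by
  refine (v.map_add _ _).trans (max_le_max ((v.map_add _ _).trans ?_) ?_)
  · rw [map_mul, map_mul]
  · rw [map_mul]

/-- Valuation bound for `S₋ = y₁x₂ - y₂x₁`. -/
lemma FA_S05_m_v_Sminus_le (v : Valuation K Γ) (x₁ y₁ x₂ y₂ : K) :
    v (y₁ * x₂ - y₂ * x₁) ≤
      max (max (v y₁ * v x₂) (v y₂ * v x₁)) (v x₁ * v x₂) := by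
  refine le_max_of_le_left ((v.map_sub _ _).trans ?_)
  rw [map_mul, map_mul]

variable [DecidableEq K]

/-- `E₀ + node = node`, with the same `v x`. -/
lemma FA_S05_m_E0_add_node (hW : FA_S05_mMult W v) {x₁ y₁ x₂ y₂ : K}
    (h₁ : W.Nonsingular x₁ y₁) (h₂ : W.Nonsingular x₂ y₂)
    (hx₁ : 1 ≤ v x₁) (hx₂ : v W.a₄ < v x₂) (hx₂' : v x₂ < 1) :
    ∃ x₃ y₃ h₃, Point.some x₁ y₁ h₁ + Point.some x₂ y₂ h₂ = Point.some x₃ y₃ h₃ ∧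
      v x₃ = v x₂ := by
  have hS := hW.toFA_S05_mShape
  have hX0 : v x₁ ≠ 0 := (zero_lt_one.trans_le hx₁).ne'
  have hρ0 : v x₂ ≠ 0 := (zero_le.trans_lt hx₂).ne'
  have hy1 := FA_S05_m_vy_sq_le hW h₁ hx₁
  have hy2 := FA_S05_m_vy_le hW h₂ hx₂.le hx₂'.le
  have h23 : v x₁ ^ 2 ≤ v x₁ ^ 3 := pow_le_pow_right₀ hx₁ (by norm_num)
  -- the three bounds
  have b1 : (v y₁ * v x₂) ^ 2 ≤ v x₂ ^ 2 * v x₁ ^ 3 := by
    rw [mul_pow, mul_comm]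
    exact mul_le_mul_right hy1 _
  have b2 : (v y₂ * v x₁) ^ 2 ≤ v x₂ ^ 2 * v x₁ ^ 3 := by
    rw [mul_pow]
    exact mul_le_mul' (pow_le_pow_left₀ zero_le hy2 2) h23
  have b3 : (v x₁ * v x₂) ^ 2 ≤ v x₂ ^ 2 * v x₁ ^ 3 := by
    rw [mul_pow, mul_comm]
    exact mul_le_mul_right h23 _
  have hSp := FA_S05_m_sq_le_of_le_max3 (FA_S05_m_v_Splus_le v x₁ y₁ x₂ y₂) b1 b2 b3
  have hSm := FA_S05_m_sq_le_of_le_max3 (FA_S05_m_v_Sminus_le v x₁ y₁ x₂ y₂) b1 b2 b3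
  have hsub : v (x₁ - x₂) = v x₁ := v.map_sub_eq_of_lt_left (hx₂'.trans_le hx₁)
  have hprod : v (x₁ * x₂) = v x₁ * v x₂ := map_mul _ _ _
  have hgt : v W.a₄ < v (x₁ * x₂) := by
    rw [hprod]
    exact hx₂.trans_le (le_mul_of_one_le_left' hx₁)
  have hsub4 : v (x₁ * x₂ - W.a₄) = v x₁ * v x₂ := by
    rw [FA_S05_m_v_sub_a4_of_gt _ hgt, hprod]
  have hP := congrArg v (FA_S05_m_Splus_mul_Sminus hS h₁ h₂)
  simp only [map_mul, hsub, hsub4] at hP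
  have hM0 : v x₂ ^ 2 * v x₁ ^ 3 ≠ 0 := mul_ne_zero (pow_ne_zero _ hρ0) (pow_ne_zero _ hX0)
  have hSp2 : v (y₁ * x₂ + y₂ * x₁ + x₁ * x₂) ^ 2 = v x₂ ^ 2 * v x₁ ^ 3 := by
    apply FA_S05_m_eq_of_le_of_mul_eq hSp hSm _ hM0
    rw [← mul_pow, hP]
    field_simp
  have hSne : y₁ * x₂ + y₂ * x₁ + x₁ * x₂ ≠ 0 := by
    intro h0
    rw [h0, map_zero, zero_pow two_ne_zero] at hSp2
    exact hM0 hSp2.symm
  obtain ⟨x₃, y₃, h₃, e, f⟩ := FA_S05_m_add_of_Splus_ne hS h₁ h₂ hSne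
  refine ⟨x₃, y₃, h₃, e, ?_⟩
  have hf := congrArg v f
  simp only [map_mul, map_pow, hsub4, hSp2] at hf
  apply mul_right_cancel₀ hM0
  rw [hf]
  field_simp

/-- `node + node` when `v S₊ = v x₁ · v x₂`: the sum. -/
lemma FA_S05_m_node_add_node (hW : FA_S05_mMult W v) {x₁ y₁ x₂ y₂ : K}
    (h₁ : W.Nonsingular x₁ y₁) (h₂ : W.Nonsingular x₂ y₂)
    (hx₁ : v x₁ ≠ 0) (hx₂ : v x₂ ≠ 0)
    (hS : v (y₁ * x₂ + y₂ * x₁ + x₁ * x₂) = v x₁ * v x₂) :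
    ∃ x₃ y₃ h₃, Point.some x₁ y₁ h₁ + Point.some x₂ y₂ h₂ = Point.some x₃ y₃ h₃ ∧
      v x₃ * (v x₁ * v x₂) = v (x₁ * x₂ - W.a₄) ^ 2 := by
  have hS' := hW.toFA_S05_mShape
  have hc : v x₁ * v x₂ ≠ 0 := mul_ne_zero hx₁ hx₂
  have hSne : y₁ * x₂ + y₂ * x₁ + x₁ * x₂ ≠ 0 := by
    intro h0
    rw [h0, map_zero] at hS
    exact hc hS.symm
  obtain ⟨x₃, y₃, h₃, e, f⟩ := FA_S05_m_add_of_Splus_ne hS' h₁ h₂ hSne
  refine ⟨x₃, y₃, h₃, e, ?_⟩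
  have hf := congrArg v f
  simp only [map_mul, map_pow, hS] at hf
  apply mul_right_cancel₀ hc
  calc v x₃ * (v x₁ * v x₂) * (v x₁ * v x₂) = v x₃ * (v x₁ * v x₂) ^ 2 := by
        rw [pow_two, mul_assoc]
    _ = v x₁ * v x₂ * v (x₁ * x₂ - W.a₄) ^ 2 := hf
    _ = v (x₁ * x₂ - W.a₄) ^ 2 * (v x₁ * v x₂) := mul_comm _ _

/-- `node - node` when `v S₊ = v x₁ · v x₂` and `x₁ ≠ x₂`: the difference. -/
lemma FA_S05_m_node_sub_node (hW : FA_S05_mMult W v) {x₁ y₁ x₂ y₂ : K}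
    (h₁ : W.Nonsingular x₁ y₁) (h₂ : W.Nonsingular x₂ y₂)
    (hx₁ : v x₁ ≠ 0) (hx₂ : v x₂ ≠ 0) (hx : x₁ ≠ x₂)
    (hS : v (y₁ * x₂ + y₂ * x₁ + x₁ * x₂) = v x₁ * v x₂) :
    ∃ x₃ y₃ h₃, Point.some x₁ y₁ h₁ - Point.some x₂ y₂ h₂ = Point.some x₃ y₃ h₃ ∧
      v x₃ * v (x₁ - x₂) ^ 2 = v x₁ * v x₂ := by
  have hS' := hW.toFA_S05_mShape
  have hc : v x₁ * v x₂ ≠ 0 := mul_ne_zero hx₁ hx₂
  obtain ⟨h₂', e₂⟩ := FA_S05_m_neg_some hS' h₂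
  obtain ⟨x₃, y₃, h₃, e, f⟩ := FA_S05_m_add_of_X_ne hS' h₁ h₂' hx
  refine ⟨x₃, y₃, h₃, by rw [sub_eq_add_neg, e₂, e], ?_⟩
  have hf := congrArg v f
  have hrw : y₁ * x₂ - (-y₂ - x₂) * x₁ = y₁ * x₂ + y₂ * x₁ + x₁ * x₂ := by ring
  rw [hrw] at hf
  simp only [map_mul, map_pow, hS] at hf
  apply mul_right_cancel₀ hc
  calc v x₃ * v (x₁ - x₂) ^ 2 * (v x₁ * v x₂) =
        v x₃ * (v x₁ * v x₂ * v (x₁ - x₂) ^ 2) := by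
        rw [mul_assoc, mul_comm (v (x₁ - x₂) ^ 2)]
    _ = (v x₁ * v x₂) ^ 2 := hf
    _ = v x₁ * v x₂ * (v x₁ * v x₂) := pow_two _

omit [DecidableEq K] in
/-- For two points of node type, `v S₊ = v x₁ v x₂` or `v S₋ = v x₁ v x₂`. -/
lemma FA_S05_m_node_node_S (hW : FA_S05_mMult W v) {x₁ y₁ x₂ y₂ : K}
    (h₁ : W.Nonsingular x₁ y₁) (h₂ : W.Nonsingular x₂ y₂)
    (hx₁ : v W.a₄ < v x₁) (hx₁' : v x₁ < 1) (hx₂ : v W.a₄ < v x₂) (hx₂' : v x₂ < 1) :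
    v (y₁ * x₂ + y₂ * x₁ + x₁ * x₂) = v x₁ * v x₂ ∨ v (y₁ * x₂ - y₂ * x₁) = v x₁ * v x₂ := by
  have hy1 := FA_S05_m_vy_le hW h₁ hx₁.le hx₁'.le
  have hy2 := FA_S05_m_vy_le hW h₂ hx₂.le hx₂'.le
  have b1 : v y₁ * v x₂ ≤ v x₁ * v x₂ := mul_le_mul_left hy1 _
  have b2 : v y₂ * v x₁ ≤ v x₁ * v x₂ := by
    rw [mul_comm (v x₁)]
    exact mul_le_mul_left hy2 _
  have hSp : v (y₁ * x₂ + y₂ * x₁ + x₁ * x₂) ≤ v x₁ * v x₂ :=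
    (FA_S05_m_v_Splus_le v x₁ y₁ x₂ y₂).trans (max_le (max_le b1 b2) le_rfl)
  have hSm : v (y₁ * x₂ - y₂ * x₁) ≤ v x₁ * v x₂ :=
    (FA_S05_m_v_Sminus_le v x₁ y₁ x₂ y₂).trans (max_le (max_le b1 b2) le_rfl)
  by_contra hcon
  rw [not_or] at hcon
  have h1 := lt_of_le_of_ne hSp hcon.1
  have h2 := lt_of_le_of_ne hSm hcon.2
  have hd : v ((y₁ * x₂ + y₂ * x₁ + x₁ * x₂) - (y₁ * x₂ - y₂ * x₁)) < v x₁ * v x₂ :=
    (v.map_sub _ _).trans_lt (max_lt h1 h2)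
  have hrw : (y₁ * x₂ + y₂ * x₁ + x₁ * x₂) - (y₁ * x₂ - y₂ * x₁) = x₁ * (2 * y₂ + x₂) := by ring
  rw [hrw, map_mul, FA_S05_m_v_two_y_add_x hW h₂ hx₂ hx₂'] at hd
  exact lt_irrefl _ hd

end Fermat.Agent.S05
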