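import Fermat.Agent.S05.MultFormulas

/-!
# S05, multiplicative case, part C1: valuations of coordinates

`v` is a valuation on `K` (multiplicative notation), the curve is `y² + xy = x³ + a₂x² + a₄x` with
`v a₂ ≤ 1`, `0 < v a₄ < 1`, `v 2 = 1`, `v (1 + 4a₂) = 1` (a node at `(0,0)` modulo the maximal ideal).
-/

open WeierstrassCurve WeierstrassCurve.Affine

namespace Fermat.Agent.S05

variable {K : Type*} [Field K] {W : WeierstrassCurve.Affine K}
variable {Γ : Type*} [LinearOrderedCommGroupWithZero Γ] {v : Valuation K Γ}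

/-- Multiplicative reduction at `v`, with the node at `(0,0)`. -/
structure FA_S05_mMult (W : WeierstrassCurve.Affine K) (v : Valuation K Γ) : Prop
    extends FA_S05_mShape W where
  a2 : v W.a₂ ≤ 1
  a4 : v W.a₄ < 1
  a4ne : W.a₄ ≠ 0
  two : v 2 = 1
  disc : v (1 + 4 * W.a₂) = 1

lemma FA_S05_mMult.four (hW : FA_S05_mMult W v) : v 4 = 1 := by
  have : (4 : K) = 2 * 2 := by norm_num
  rw [this, map_mul, hW.two, mul_one]

lemma FA_S05_mMult.B_ne (hW : FA_S05_mMult W v) : v W.a₄ ≠ 0 :=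
  (Valuation.ne_zero_iff v).2 hW.a4ne

/-- For a point with `v a₄ ≤ v x ≤ 1`: `v y ≤ v x`. -/
lemma FA_S05_m_vy_le (hW : FA_S05_mMult W v) {x y : K} (h : W.Nonsingular x y)
    (hx1 : v W.a₄ ≤ v x) (hx2 : v x ≤ 1) : v y ≤ v x := by
  by_contra hlt
  rw [not_le] at hlt
  have e := FA_S05_m_eq hW.toFA_S05_mShape h
  have hx0 : v x ≠ 0 := fun h0 => hW.B_ne (le_zero_iff.1 (h0 ▸ hx1))
  have hy0 : v y ≠ 0 := (zero_le.trans_lt hlt).ne'
  -- valuation of the left-hand side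
  have hL : v (y ^ 2 + x * y) = v y ^ 2 := by
    rw [← map_pow]
    apply Valuation.map_add_eq_of_lt_left
    rw [map_mul, map_pow, pow_two]
    exact mul_lt_mul_of_pos_right hlt (zero_lt_iff.2 hy0)
  -- valuation of the right-hand side
  have hR : v (x ^ 3 + W.a₂ * x ^ 2 + W.a₄ * x) ≤ v x ^ 2 := by
    refine (v.map_add _ _).trans (max_le ((v.map_add _ _).trans (max_le ?_ ?_)) ?_)
    · rw [map_pow, pow_succ]
      exact mul_le_of_le_one_right' hx2
    · rw [map_mul, map_pow]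
      exact mul_le_of_le_one_left' hW.a2
    · rw [map_mul, pow_two]
      exact mul_le_mul_left hx1 _
  rw [e] at hL
  rw [hL] at hR
  exact absurd ((pow_le_pow_iff_left₀ zero_le zero_le two_ne_zero).1 hR) (not_le.2 hlt)

/-- For a point with `1 ≤ v x`: `(v y)² ≤ (v x)³`. -/
lemma FA_S05_m_vy_sq_le (hW : FA_S05_mMult W v) {x y : K} (h : W.Nonsingular x y)
    (hx1 : 1 ≤ v x) : v y ^ 2 ≤ v x ^ 3 := by
  by_contra hlt
  rw [not_le] at hlt
  have e := FA_S05_m_eq hW.toFA_S05_mShape h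
  have hx0 : v x ≠ 0 := (zero_lt_one.trans_le hx1).ne'
  have h12 : v x ^ 2 ≤ v x ^ 3 := by
    rw [pow_succ _ 2]
    exact le_mul_of_one_le_right' hx1
  have hxy : v x < v y :=
    lt_of_pow_lt_pow_left₀ 2 zero_le (lt_of_le_of_lt h12 hlt)
  have hy0 : v y ≠ 0 := (zero_le.trans_lt hxy).ne'
  have hL : v (y ^ 2 + x * y) = v y ^ 2 := by
    rw [← map_pow]
    apply Valuation.map_add_eq_of_lt_left
    rw [map_mul, map_pow, pow_two]
    exact mul_lt_mul_of_pos_right hxy (zero_lt_iff.2 hy0)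
  have hR : v (x ^ 3 + W.a₂ * x ^ 2 + W.a₄ * x) ≤ v x ^ 3 := by
    refine (v.map_add _ _).trans (max_le ((v.map_add _ _).trans (max_le ?_ ?_)) ?_)
    · rw [map_pow]
    · rw [map_mul, map_pow]
      exact (mul_le_of_le_one_left' hW.a2).trans h12
    · rw [map_mul]
      refine (mul_le_of_le_one_left' hW.a4.le).trans ?_
      calc v x = v x ^ 1 := (pow_one _).symm
        _ ≤ v x ^ 3 := pow_le_pow_right₀ hx1 (by norm_num)
  rw [e] at hL
  rw [hL] at hR
  exact absurd hR (not_le.2 hlt)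

/-- For `v a₄ < v x < 1`: `v (4x² + (1 + 4a₂) x + 4a₄) = v x`. -/
lemma FA_S05_m_vD (hW : FA_S05_mMult W v) {x : K}
    (hx1 : v W.a₄ < v x) (hx2 : v x < 1) :
    v (4 * x ^ 2 + (1 + 4 * W.a₂) * x + 4 * W.a₄) = v x := by
  have hx0 : v x ≠ 0 := (zero_le.trans_lt hx1).ne'
  have h1 : v ((1 + 4 * W.a₂) * x) = v x := by rw [map_mul, hW.disc, one_mul]
  have h2 : v (4 * x ^ 2) < v x := by
    rw [map_mul, hW.four, one_mul, map_pow, pow_two]
    calc v x * v x < 1 * v x := mul_lt_mul_of_pos_right hx2 (zero_lt_iff.2 hx0)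
      _ = v x := one_mul _
  have h3 : v (4 * W.a₄) < v x := by rwa [map_mul, hW.four, one_mul]
  have h4 : v (4 * x ^ 2 + (1 + 4 * W.a₂) * x) = v x := by
    rw [add_comm, v.map_add_eq_of_lt_left (h1.symm ▸ h2), h1]
  rw [v.map_add_eq_of_lt_left (h4.symm ▸ h3), h4]

/-- For a point of node type (`v a₄ < v x < 1`): `v (2y + x) = v x`. -/
lemma FA_S05_m_v_two_y_add_x (hW : FA_S05_mMult W v) {x y : K} (h : W.Nonsingular x y)
    (hx1 : v W.a₄ < v x) (hx2 : v x < 1) : v (2 * y + x) = v x := by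
  have e := FA_S05_m_sq_two_y_add_x hW.toFA_S05_mShape h
  have hD := FA_S05_m_vD hW hx1 hx2
  have := congrArg v e
  rw [map_pow, map_mul, hD, ← pow_two] at this
  exact (pow_left_inj₀ zero_le zero_le two_ne_zero).1 this

/-- `v (x₁x₂ - a₄)` in terms of `v (x₁ x₂)`. -/
lemma FA_S05_m_v_sub_a4_of_gt (z : K) (hz : v W.a₄ < v z) : v (z - W.a₄) = v z :=
  v.map_sub_eq_of_lt_left hz

lemma FA_S05_m_v_sub_a4_of_lt (z : K) (hz : v z < v W.a₄) : v (z - W.a₄) = v W.a₄ :=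
  v.map_sub_eq_of_lt_right hz

lemma FA_S05_m_v_sub_a4_of_eq (z : K) (hz : v z = v W.a₄) : v (z - W.a₄) ≤ v W.a₄ :=
  (v.map_sub _ _).trans (max_le hz.le le_rfl)

end Fermat.Agent.S05
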